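import Fermat.Agent.PIC.Chart.Datum
import Mathlib

/-!
# The "polynomial part" retraction of a chart module inside its localisation, used to bound cycles

`exists_retraction` retracts the restriction map and kills the sufficiently negative powers of the
coordinate.
-/

set_option autoImplicit false

universe u

open scoped TensorProduct
open Polynomial

namespace Fermat.PIC

noncomputable section

section DivX

variable {k : Type u} [Field k] {A : Type u} [CommRing A] [IsDomain A] [Algebra k A] {x : A}

/-- Existence of a left inverse of multiplication by the coordinate which is locally nilpotent. -/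
lemma exists_divX (hfin : (Polynomial.aeval x : k[X] →ₐ[k] A).toRingHom.Finite)
    (hinj : Function.Injective (Polynomial.aeval x : k[X] →ₐ[k] A)) :
    ∃ T : A →ₗ[k] A, (∀ a, T (x * a) = a) ∧ ∀ a, ∃ n, (T ^ n) a = 0 := by
  classical
  let := (Polynomial.aeval x : k[X] →ₐ[k] A).toRingHom.toAlgebra
  have : IsScalarTower k k[X] A :=
    IsScalarTower.of_algebraMap_eq fun c ↦ ((Polynomial.aeval x).commutes c).symm
  have : Module.Finite k[X] A := hfin
  have : Module.IsTorsionFree k[X] A := by
    refine ⟨fun p hp a b h ↦ ?_⟩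
    have hp0 : Polynomial.aeval x p ≠ 0 := fun h0 ↦ hp.ne_zero (hinj (h0.trans (map_zero _).symm))
    exact mul_left_cancel₀ hp0 h
  have : Module.Free k[X] A := Module.free_of_finite_type_torsion_free'
  let b := Module.Free.chooseBasis k[X] A
  let divl : k[X] →ₗ[k] k[X] :=
    { toFun := Polynomial.divX
      map_add' := fun p q ↦ Polynomial.divX_add
      map_smul' := fun c p ↦ by ext n; simp [Polynomial.coeff_divX] }
  -- `T` divides each coordinate in a `k[X]`-basis by `X`
  let T : A →ₗ[k] A := (b.repr.symm.toLinearMap.restrictScalars k).comp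
    ((Finsupp.mapRange.linearMap divl).comp (b.repr.toLinearMap.restrictScalars k))
  have hx : ∀ a, b.repr (x * a) = (Polynomial.X : k[X]) • b.repr a := fun a ↦ by
    rw [← map_smul]
    congr 1
    change x * a = Polynomial.aeval x Polynomial.X * a
    rw [Polynomial.aeval_X]
  refine ⟨T, fun a ↦ ?_, fun a ↦ ?_⟩
  · apply b.repr.injective
    ext i
    simp [T, divl, hx]
  · refine ⟨(b.repr a).support.sup (fun i ↦ ((b.repr a) i).natDegree) + 1, ?_⟩
    have key : ∀ n i, b.repr ((T ^ n) a) i = (Polynomial.divX^[n]) (b.repr a i) := by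
      intro n
      induction n with
      | zero => intro i; simp
      | succ n ih =>
        intro i
        rw [pow_succ', Module.End.mul_apply, Function.iterate_succ_apply', ← ih i]
        simp [T, divl]
    apply b.repr.injective
    ext i : 1
    rw [key, map_zero, Finsupp.zero_apply]
    ext m
    have hco : ∀ n (p : k[X]), ((Polynomial.divX^[n]) p).coeff m = p.coeff (m + n) := by
      intro n
      induction n with
      | zero => intro p; rfl
      | succ n ih =>
        intro p
        rw [Function.iterate_succ_apply, ih, Polynomial.coeff_divX, Nat.add_assoc]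
    rw [hco, Polynomial.coeff_zero]
    by_cases hi : i ∈ (b.repr a).support
    · refine Polynomial.coeff_eq_zero_of_natDegree_lt ?_
      have := Finset.le_sup (f := fun i ↦ ((b.repr a) i).natDegree) hi
      omega
    · simp [Finsupp.notMem_support_iff.mp hi]

/-- The base-changed version of `exists_divX`. -/
lemma exists_divX_tensor (hfin : (Polynomial.aeval x : k[X] →ₐ[k] A).toRingHom.Finite)
    (hinj : Function.Injective (Polynomial.aeval x : k[X] →ₐ[k] A))
    (B : Type u) [CommRing B] [Algebra k B] :
    ∃ T : B ⊗[k] A →ₗ[B] B ⊗[k] A, (∀ a, T (((1 : B) ⊗ₜ x) * a) = a) ∧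
      ∀ a, ∃ n, (T ^ n) a = 0 := by
  obtain ⟨T, hT, hnil⟩ := exists_divX hfin hinj
  let TB : B ⊗[k] A →ₗ[B] B ⊗[k] A := TensorProduct.AlgebraTensorModule.lTensor B B T
  have hpow : ∀ n b a, (TB ^ n) (b ⊗ₜ a) = b ⊗ₜ (T ^ n) a := by
    intro n
    induction n with
    | zero => intros; rfl
    | succ n ih =>
      intro b a
      rw [pow_succ', pow_succ', Module.End.mul_apply, Module.End.mul_apply, ih]
      rfl
  refine ⟨TB, fun z ↦ ?_, fun z ↦ ?_⟩
  · induction z using TensorProduct.induction_on with
    | zero => simp
    | tmul b a => simp [TB, Algebra.TensorProduct.tmul_mul_tmul, hT]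
    | add z w hz hw => rw [mul_add, map_add, hz, hw]
  · induction z using TensorProduct.induction_on with
    | zero => exact ⟨0, by simp⟩
    | tmul b a =>
      obtain ⟨n, hn⟩ := hnil a
      exact ⟨n, by rw [hpow, hn, TensorProduct.tmul_zero]⟩
    | add z w hz hw =>
      obtain ⟨n, hn⟩ := hz
      obtain ⟨m, hm⟩ := hw
      refine ⟨m + n, ?_⟩
      rw [map_add, pow_add, Module.End.mul_apply, hn, map_zero, zero_add,
        (Commute.pow_pow_self TB m n).eq, Module.End.mul_apply, hm, map_zero]

end DivX

section Retraction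

variable {B R P Q : Type*} [CommRing B] [CommRing R] [Algebra B R] [AddCommGroup P] [Module R P]
  [Module B P] [IsScalarTower B R P] [Module.Finite R P] [Module.Projective R P]
  [AddCommGroup Q] [Module B Q]

/-- A retraction of `r` killing sufficiently negative powers of the coordinate. -/
lemma exists_retraction (x : R) (T : R →ₗ[B] R) (hT : ∀ a, T (x * a) = a)
    (hnil : ∀ a, ∃ n, (T ^ n) a = 0) (u : Module.End B Q)
    (r : P →ₗ[B] Q) (hr : Function.Injective r) (hru : ∀ p, r (x • p) = u (r p))
    (hsurj : ∀ z, ∃ n p, r p = (u ^ n) z) :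
    ∃ π : Q →ₗ[B] P, (∀ p, π (r p) = p) ∧
      ∀ z, ∃ N : ℕ, ∀ f, N ≤ f → ∀ w, (u ^ f) w = z → π w = 0 := by
  classical
  obtain ⟨n, g, hg⟩ := Module.Finite.exists_fin' R P
  obtain ⟨φ, hφ⟩ := Module.projective_lifting_property g LinearMap.id hg
  -- the coordinatewise operator
  let TT : Module.End B (Fin n → R) := LinearMap.pi fun i ↦ T.comp (LinearMap.proj i)
  have hTT : ∀ m (v : Fin n → R) i, (TT ^ m) v i = (T ^ m) (v i) := by
    intro m
    induction m with
    | zero => intros; rfl
    | succ m ih =>
      intro v i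
      rw [pow_succ', pow_succ', Module.End.mul_apply, Module.End.mul_apply]
      exact congrArg T (ih v i)
  have hru' : ∀ m p, r (x ^ m • p) = (u ^ m) (r p) := by
    intro m
    induction m with
    | zero => intro p; simp
    | succ m ih => intro p; rw [pow_succ', mul_smul, hru, ih, pow_succ', Module.End.mul_apply]
  have hTx : ∀ m a, (T ^ m) (x ^ m * a) = a := by
    intro m
    induction m with
    | zero => intro a; simp
    | succ m ih =>
      intro a
      rw [pow_succ', pow_succ, mul_assoc, Module.End.mul_apply, ih, hT]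
  have hshift : ∀ m l (v : Fin n → R), (TT ^ (m + l)) (x ^ l • v) = (TT ^ m) v := by
    intro m l v
    funext i
    rw [hTT, hTT, pow_add, Module.End.mul_apply]
    exact congrArg _ (hTx l (v i))
  let val : ℕ → P → P := fun m p ↦ g ((TT ^ m) (φ p))
  have wd : ∀ z m p m' p', r p = (u ^ m) z → r p' = (u ^ m') z → val m p = val m' p' := by
    intro z m p m' p' h h'
    have e : x ^ m' • p = x ^ m • p' := by
      apply hr
      rw [hru', hru', h, h', ← Module.End.mul_apply, ← Module.End.mul_apply, ← pow_add, ← pow_add,
        add_comm]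
    have e2 : x ^ m' • φ p = x ^ m • φ p' := by rw [← map_smul, ← map_smul, e]
    change g ((TT ^ m) (φ p)) = g ((TT ^ m') (φ p'))
    rw [← hshift m m', e2, add_comm, hshift m' m]
  choose nn pp hpp using hsurj
  let π : Q →ₗ[B] P :=
    { toFun := fun z ↦ val (nn z) (pp z)
      map_add' := fun z w ↦ by
        have h1 : r (x ^ nn w • pp z) = (u ^ (nn z + nn w)) z := by
          rw [hru', hpp, ← Module.End.mul_apply, ← pow_add, add_comm]
        have h2 : r (x ^ nn z • pp w) = (u ^ (nn z + nn w)) w := by
          rw [hru', hpp, ← Module.End.mul_apply, ← pow_add]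
        rw [wd (z + w) _ _ (nn z + nn w) (x ^ nn w • pp z + x ^ nn z • pp w) (hpp _)
            (by rw [map_add, map_add, h1, h2]),
          wd z (nn z) _ _ _ (hpp _) h1, wd w (nn w) _ _ _ (hpp _) h2]
        simp only [val, map_add]
      map_smul' := fun b z ↦ by
        rw [RingHom.id_apply, wd (b • z) _ _ (nn z) (b • pp z) (hpp _)
          (by rw [map_smul, map_smul, hpp])]
        simp only [val, LinearMap.map_smul_of_tower] }
  have πval : ∀ z m p, r p = (u ^ m) z → π z = val m p := fun z m p h ↦ wd z _ _ _ _ (hpp z) h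
  refine ⟨π, fun p ↦ ?_, fun z ↦ ?_⟩
  · rw [πval (r p) 0 p (by simp)]
    exact LinearMap.congr_fun hφ p
  · choose Nf hNf using fun i ↦ hnil (φ (pp z) i)
    refine ⟨Finset.univ.sup Nf, fun f hf w hw ↦ ?_⟩
    rw [πval w (nn z + f) (pp z) (by rw [hpp, pow_add, Module.End.mul_apply, hw])]
    change g _ = 0
    suffices (TT ^ (nn z + f)) (φ (pp z)) = 0 by rw [this, map_zero]
    funext i
    have hle : Nf i ≤ nn z + f := le_trans ((Finset.le_sup (Finset.mem_univ i)).trans hf) (by omega)
    rw [hTT, ← Nat.sub_add_cancel hle, pow_add, Module.End.mul_apply, hNf, map_zero]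
    rfl

end Retraction

end

end Fermat.PIC
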