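import Fermat.Agent.PIC.Chart.Datum
import Mathlib

/-!
# Global functions on the curve over a base ring are the functions on the base

`trivialH0Equiv` identifies them; over a field `h0_trivial` says that only constants are global.
-/

set_option autoImplicit false

universe u

open scoped TensorProduct

namespace Fermat.PIC

noncomputable section

variable {k : Type u} [Field k] (G : CurveCharts k) (B : Type u) [CommRing B] [Algebra k B]

namespace CurveCharts

/-- Functions on the two charts agreeing on the overlap come from the base. -/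
theorem exists_algebraMap_of_ρ_eq {a : G.R0 B} {b : G.R1 B} (h : G.ρ0 B a = G.ρ1 B b) :
    ∃ c : B, a = algebraMap B (G.R0 B) c ∧ b = algebraMap B (G.R1 B) c := by
  -- over `k`: only constants are regular, so `k → A0 × A1 → A01` is exact
  let dk : G.A0 × G.A1 →ₗ[k] G.A01 :=
    G.res0.toLinearMap.comp (LinearMap.fst k _ _) - G.res1.toLinearMap.comp (LinearMap.snd k _ _)
  let i : k →ₗ[k] G.A0 × G.A1 :=
    (Algebra.linearMap k G.A0).prod (Algebra.linearMap k G.A1)
  have hex : Function.Exact i dk := by
    intro z
    constructor
    · intro hz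
      simp only [dk, LinearMap.sub_apply, LinearMap.coe_comp, Function.comp_apply,
        LinearMap.fst_apply, LinearMap.snd_apply, sub_eq_zero] at hz
      obtain ⟨c, hc⟩ := G.regular z.1 z.2 hz
      refine ⟨c, Prod.ext hc.symm ?_⟩
      apply (show Function.Injective G.res1 from by
        let := G.res1.toRingHom.toAlgebra
        have := G.loc1
        refine IsLocalization.injective G.A01 (M := Submonoid.powers G.y) ?_
        refine powers_le_nonZeroDivisors_of_noZeroDivisors fun h0 ↦ ?_
        simpa [h0] using G.res0_mul_res1)
      change G.res1 (algebraMap k G.A1 c) = G.res1 z.2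
      rw [AlgHom.commutes, ← G.res0.commutes, ← hc]
      exact hz
    · rintro ⟨c, rfl⟩
      simp [dk, i]
  -- it stays exact after tensoring with `B`
  have hexB := Module.Flat.lTensor_exact B hex
  let e := TensorProduct.prodRight k k B G.A0 G.A1
  have key : ∀ w, G.ρ0 B (e w).1 - G.ρ1 B (e w).2 = dk.lTensor B w := by
    intro w
    induction w using TensorProduct.induction_on with
    | zero => simp
    | tmul x z => simp [e, dk, CurveCharts.ρ0, CurveCharts.ρ1]
    | add v w hv hw => simp only [map_add, Prod.fst_add, Prod.snd_add, ← hv, ← hw]; abel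
  -- so the pair comes from `B ⊗ k`
  obtain ⟨w, hw⟩ := (hexB (e.symm (a, b))).mp (by
    rw [← key, LinearEquiv.apply_symm_apply]
    exact sub_eq_zero.mpr h)
  obtain ⟨c, rfl⟩ : ∃ c : B, w = c ⊗ₜ[k] (1 : k) :=
    ⟨TensorProduct.rid k B w, ((TensorProduct.rid k B).symm_apply_apply w).symm⟩
  refine ⟨c, ?_, ?_⟩
  · have := congrArg (fun z ↦ (e z).1) hw
    simpa [e, i, Algebra.TensorProduct.algebraMap_apply] using this.symm
  · have := congrArg (fun z ↦ (e z).2) hw
    simpa [e, i, Algebra.TensorProduct.algebraMap_apply] using this.symm

/-- The base injects into the functions on `U0`. -/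
lemma algebraMap_R0_injective : Function.Injective (algebraMap B (G.R0 B)) :=
  (Algebra.TensorProduct.includeLeft_injective (S := B) (algebraMap k G.A0).injective)

end CurveCharts

namespace Datum

/-- The base is the space of global functions. -/
def trivialH0Equiv : B ≃ₗ[B] (trivial G B).H0 :=
  LinearEquiv.ofBijective
    (LinearMap.codRestrict _ ((Algebra.linearMap B (G.R0 B)).prod (Algebra.linearMap B (G.R1 B)))
      fun c ↦ by
        change G.ρ0 B (algebraMap B _ c) - G.ρ1 B (algebraMap B _ c) = 0
        rw [AlgHom.commutes, AlgHom.commutes, sub_self])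
    ⟨fun c c' h ↦ G.algebraMap_R0_injective B (congrArg Prod.fst (congrArg Subtype.val h)),
      fun z ↦ by
        have hz : G.ρ0 B z.1.1 - G.ρ1 B z.1.2 = 0 := z.2
        obtain ⟨c, h0, h1⟩ := G.exists_algebraMap_of_ρ_eq B (sub_eq_zero.mp hz)
        exact ⟨c, Subtype.ext (Prod.ext h0.symm h1.symm)⟩⟩

/-- Only constants are global functions, over a field. -/
lemma h0_trivial (K : Type u) [Field K] [Algebra k K] : (trivial G K).h0 = 1 := by
  rw [h0, ← (trivialH0Equiv G K).finrank_eq, Module.finrank_self]

end Datum

end

end Fermat.PIC
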