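import Fermat.Agent.PIC.Chart.CechBC
import Mathlib

/-!
# Existence of base changes of data

`exists_baseChange`: the base changes of the chart modules form a base change of the datum.
-/

set_option autoImplicit false

universe u

open scoped TensorProduct

namespace Fermat.PIC

noncomputable section

section Module

variable {k : Type u} [Field k] {A : Type u} [CommRing A] [Algebra k A]
  {B B' : Type u} [CommRing B] [CommRing B'] [Algebra k B] [Algebra k B'] [Algebra B B']
  [IsScalarTower k B B'] {A' : Type u} [CommRing A'] [Algebra k A']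

/-- The base change of a chart module. -/
def bcMod (B' : Type u) [CommRing B'] [Algebra k B'] [Algebra B B'] [IsScalarTower k B B']
    (P : Type u) [AddCommGroup P] [Module (B ⊗[k] A) P] : ModuleCat.{u} (B' ⊗[k] A) :=
  letI := (bcRing (k := k) (A := A) (B := B) (B' := B')).toRingHom.toAlgebra
  ModuleCat.of (B' ⊗[k] A) ((B' ⊗[k] A) ⊗[B ⊗[k] A] P)

/-- The canonical map to the base change. -/
def toBcMod (P : Type u) [AddCommGroup P] [Module (B ⊗[k] A) P] :
    P →+ bcMod (k := k) (A := A) (B := B) B' P :=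
  letI := (bcRing (k := k) (A := A) (B := B) (B' := B')).toRingHom.toAlgebra
  AddMonoidHom.mk' (fun p ↦ ((1 : B' ⊗[k] A) ⊗ₜ[B ⊗[k] A] p))
    fun p q ↦ TensorProduct.tmul_add _ p q

variable {P : Type u} [AddCommGroup P] [Module (B ⊗[k] A) P]

/-- The map to the base change is semilinear. -/
lemma toBcMod_smul (a : B ⊗[k] A) (p : P) :
    toBcMod (k := k) (A := A) (B := B) (B' := B') P (a • p) =
      bcRing (B' := B') a • toBcMod (k := k) (A := A) (B := B) (B' := B') P p := by
  let := (bcRing (k := k) (A := A) (B := B) (B' := B')).toRingHom.toAlgebra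
  change ((1 : B' ⊗[k] A) ⊗ₜ[B ⊗[k] A] (a • p)) =
    bcRing (B' := B') a • ((1 : B' ⊗[k] A) ⊗ₜ[B ⊗[k] A] p)
  rw [TensorProduct.tmul_smul, TensorProduct.smul_tmul', TensorProduct.smul_tmul', Algebra.smul_def,
    mul_one]
  simp only [smul_eq_mul, mul_one]
  rfl

/-- The image spans the base change. -/
lemma span_toBcMod :
    Submodule.span (B' ⊗[k] A)
      (Set.range (toBcMod (k := k) (A := A) (B := B) (B' := B') P)) = ⊤ := by
  let := (bcRing (k := k) (A := A) (B := B) (B' := B')).toRingHom.toAlgebra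
  rw [eq_top_iff]
  rintro w -
  change (B' ⊗[k] A) ⊗[B ⊗[k] A] P at w
  induction w using TensorProduct.induction_on with
  | zero => exact Submodule.zero_mem _
  | add v w hv hw => exact Submodule.add_mem _ hv hw
  | tmul r p =>
    have e : (r ⊗ₜ[B ⊗[k] A] p) = r • ((1 : B' ⊗[k] A) ⊗ₜ[B ⊗[k] A] p) := by
      rw [TensorProduct.smul_tmul', smul_eq_mul, mul_one]
    rw [e]
    exact Submodule.smul_mem _ r (Submodule.subset_span ⟨p, rfl⟩)

/-- The base change of an invertible module is invertible. -/
instance [Module.Invertible (B ⊗[k] A) P] :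
    Module.Invertible (B' ⊗[k] A) (bcMod (k := k) (A := A) (B := B) B' P) :=
  letI := (bcRing (k := k) (A := A) (B := B) (B' := B')).toRingHom.toAlgebra
  inferInstanceAs (Module.Invertible (B' ⊗[k] A) ((B' ⊗[k] A) ⊗[B ⊗[k] A] P))

/-- The base change is a module over the new base. -/
instance : Module B' (bcMod (k := k) (A := A) (B := B) B' P) :=
  Module.compHom _ (algebraMap B' (B' ⊗[k] A))

/-- The base change is a tower over the new base. -/
instance : IsScalarTower B' (B' ⊗[k] A) (bcMod (k := k) (A := A) (B := B) B' P) :=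
  IsScalarTower.of_algebraMap_smul fun _ _ ↦ rfl

/-- The base change of a chart module is the base change over the base ring. -/
def bcEquiv [Module B P] [IsScalarTower B (B ⊗[k] A) P] [Module.Invertible (B ⊗[k] A) P] :
    B' ⊗[B] P ≃ₗ[B'] bcMod (k := k) (A := A) (B := B) B' P :=
  { AddEquiv.ofBijective (bcMap (toBcMod (B' := B') P) toBcMod_smul)
      (bcMap_bijective _ toBcMod_smul span_toBcMod) with
    map_smul' := fun b z ↦ bcMap_smul _ _ b z }

/-- A map semilinear along a map of `B'`-algebras, as a `B'`-linear map. -/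
def linearOfSemilinear {R R' P' Q' : Type u} [CommRing R] [CommRing R'] [Algebra B' R]
    [Algebra B' R'] [AddCommGroup P'] [AddCommGroup Q'] [Module R P'] [Module R' Q'] [Module B' P']
    [Module B' Q'] [IsScalarTower B' R P'] [IsScalarTower B' R' Q'] (ρ : R →ₐ[B'] R')
    (r : P' →+ Q') (hr : ∀ a p, r (a • p) = ρ.toRingHom a • r p) : P' →ₗ[B'] Q' :=
  { toFun := r
    map_add' := map_add r
    map_smul' := fun b w ↦ by
      rw [RingHom.id_apply, ← algebraMap_smul R b w, ← algebraMap_smul R' b (r w)]
      exact (hr _ w).trans (congrArg (fun a : R' ↦ a • r w) (ρ.commutes b)) }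

/-- Two preimages up to powers give one of the sum up to a power. -/
lemma exists_pow_smul_add {R R' P' Q' : Type u} [CommRing R] [CommRing R'] [AddCommGroup P']
    [AddCommGroup Q'] [Module R P'] [Module R' Q'] (ρ : R →+* R') (r : P' →+ Q')
    (hr : ∀ a p, r (a • p) = ρ a • r p) {X : R} {x : R'} (hX : ρ X = x) {v w : Q'}
    (hv : ∃ (n : ℕ) (p : P'), r p = x ^ n • v) (hw : ∃ (n : ℕ) (p : P'), r p = x ^ n • w) :
    ∃ (n : ℕ) (p : P'), r p = x ^ n • (v + w) := by
  obtain ⟨n, p, hp⟩ := hv
  obtain ⟨m, q, hq⟩ := hw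
  refine ⟨n + m, (X ^ m) • p + (X ^ n) • q, ?_⟩
  rw [map_add, hr, hr, hp, hq, map_pow, map_pow, hX, smul_add, ← mul_smul, ← mul_smul, pow_add,
    mul_comm (x ^ m)]

/-- A semilinear map between chart modules induces one between their base changes. -/
lemma exists_bcMod_map (ρ : B ⊗[k] A →+* B ⊗[k] A') (ρ' : B' ⊗[k] A →+* B' ⊗[k] A')
    (hρ : ∀ a, ρ' (bcRing (B' := B') a) = bcRing (B' := B') (ρ a))
    {Q : Type u} [AddCommGroup Q] [Module (B ⊗[k] A') Q] (r : P →+ Q)
    (hr : ∀ (a : B ⊗[k] A) p, r (a • p) = ρ a • r p) :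
    ∃ r' : bcMod (k := k) (A := A) (B := B) B' P →+ bcMod (k := k) (A := A') (B := B) B' Q,
      (∀ a w, r' (a • w) = ρ' a • r' w) ∧
      ∀ p, r' (toBcMod (B' := B') P p) = toBcMod (B' := B') Q (r p) := by
  let := (bcRing (k := k) (A := A) (B := B) (B' := B')).toRingHom.toAlgebra
  let r' : (B' ⊗[k] A) ⊗[B ⊗[k] A] P →+ bcMod (k := k) (A := A') (B := B) B' Q :=
    TensorProduct.liftAddHom
      (AddMonoidHom.mk' (fun a' : B' ⊗[k] A ↦ AddMonoidHom.mk'
        (fun p ↦ ρ' a' • toBcMod (B' := B') Q (r p)) fun p q ↦ by rw [map_add, map_add, smul_add])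
        fun a c ↦ by ext p; simp [add_smul])
      fun a a' p ↦ by
        simp only [AddMonoidHom.mk'_apply]
        rw [hr, toBcMod_smul, ← hρ, ← mul_smul, ← map_mul, Algebra.smul_def, mul_comm]
        rfl
  have htm : ∀ (a' : B' ⊗[k] A) (p : P), r' (a' ⊗ₜ[B ⊗[k] A] p) =
      ρ' a' • toBcMod (k := k) (A := A') (B := B) (B' := B') Q (r p) := fun _ _ ↦ rfl
  have hlin : ∀ (a : B' ⊗[k] A) (w : (B' ⊗[k] A) ⊗[B ⊗[k] A] P), r' (a • w) = ρ' a • r' w := by
    intro a w
    induction w using TensorProduct.induction_on with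
    | zero => rw [smul_zero, map_zero, smul_zero]
    | add v w hv hw => rw [smul_add, map_add, map_add, smul_add, hv, hw]
    | tmul c p => rw [TensorProduct.smul_tmul', htm, htm, smul_eq_mul, map_mul, mul_smul]
  refine ⟨r', hlin, fun p ↦ ?_⟩
  exact (htm 1 p).trans (by rw [map_one, one_smul])

end Module

namespace Datum

variable {k : Type u} [Field k] {G : CurveCharts k} {B : Type u} [CommRing B] [Algebra k B]
  (D : Datum G B) (B' : Type u) [CommRing B'] [Algebra k B'] [Algebra B B'] [IsScalarTower k B B']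

/-- Restriction from `U0` commutes with change of the base. -/
lemma rho0_bcRing (a : G.R0 B) :
    G.ρ0 B' (bcRing (B' := B') a) = bcRing (B' := B') (G.ρ0 B a) := by
  induction a using TensorProduct.induction_on with
  | zero => simp
  | tmul b c => simp [CurveCharts.ρ0, bcRing]
  | add v w hv hw => simp [map_add, hv, hw]

/-- Restriction from `U1` commutes with change of the base. -/
lemma rho1_bcRing (a : G.R1 B) :
    G.ρ1 B' (bcRing (B' := B') a) = bcRing (B' := B') (G.ρ1 B a) := by
  induction a using TensorProduct.induction_on with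
  | zero => simp
  | tmul b c => simp [CurveCharts.ρ1, bcRing]
  | add v w hv hw => simp [map_add, hv, hw]

/-- The coordinate unit is preserved by change of the base. -/
lemma bcRing_xUnit : bcRing (k := k) (A := G.A01) (B' := B') (G.xUnit B : G.R01 B) =
    G.xUnit B' := by
  simp [CurveCharts.xUnit, CurveCharts.ρ0, CurveCharts.X0, bcRing]

/-- The inverse coordinate unit is preserved by change of the base. -/
lemma bcRing_xUnit_inv :
    bcRing (k := k) (A := G.A01) (B' := B') (↑(G.xUnit B)⁻¹ : G.R01 B) =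
      (↑(G.xUnit B')⁻¹ : G.R01 B') := by
  simp [CurveCharts.xUnit, CurveCharts.ρ1, CurveCharts.Y1, bcRing]

/-- Injectivity of the base change of a restriction map admitting a retraction. -/
lemma injective_of_retraction {B' P Q P' Q' : Type u} [CommRing B'] [Algebra B B']
    [AddCommGroup P] [AddCommGroup Q] [AddCommGroup P'] [AddCommGroup Q']
    [Module B P] [Module B Q] [Module B' P'] [Module B' Q']
    (eP : B' ⊗[B] P ≃ₗ[B'] P') (eQ : B' ⊗[B] Q ≃ₗ[B'] Q') (r : P →ₗ[B] Q) (π : Q →ₗ[B] P)
    (hπ : ∀ p, π (r p) = p) (r' : P' →ₗ[B'] Q')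
    (h : ∀ p, r' (eP (1 ⊗ₜ p)) = eQ (1 ⊗ₜ r p)) : Function.Injective r' := by
  have key : ∀ w, r' (eP w) = eQ (r.baseChange B' w) := by
    intro w
    induction w using TensorProduct.induction_on with
    | zero => simp
    | add v w hv hw => simp only [map_add, hv, hw]
    | tmul b p =>
      rw [LinearMap.baseChange_tmul, show b ⊗ₜ[B] p = b • ((1 : B') ⊗ₜ[B] p) by
        rw [TensorProduct.smul_tmul', smul_eq_mul, mul_one], map_smul, map_smul, h, ← map_smul,
        TensorProduct.smul_tmul', smul_eq_mul, mul_one]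
  intro a c hac
  rw [← eP.apply_symm_apply a, ← eP.apply_symm_apply c, key, key] at hac
  have h2 := congrArg (π.baseChange B') (eQ.injective hac)
  rw [← LinearMap.comp_apply, ← LinearMap.comp_apply, ← LinearMap.baseChange_comp,
    show π ∘ₗ r = LinearMap.id from LinearMap.ext hπ, LinearMap.baseChange_id] at h2
  exact eP.symm.injective h2

/-- A datum has a base change. -/
theorem exists_baseChange : ∃ D' : Datum G B',
    Nonempty (BC (IsScalarTower.toAlgHom k B B') D D') := by
  obtain ⟨r0', hr0', hc0⟩ := exists_bcMod_map (k := k) (B' := B') (A := G.A0) (A' := G.A01)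
    (P := D.P0) (Q := D.P01) (G.ρ0 B).toRingHom (G.ρ0 B').toRingHom (rho0_bcRing B')
    D.r0.toAddMonoidHom D.r0_smul
  obtain ⟨r1', hr1', hc1⟩ := exists_bcMod_map (k := k) (B' := B') (A := G.A1) (A' := G.A01)
    (P := D.P1) (Q := D.P01) (G.ρ1 B).toRingHom (G.ρ1 B').toRingHom (rho1_bcRing B')
    D.r1.toAddMonoidHom D.r1_smul
  -- base change each module; the restrictions extend semilinearly
  let P0' := bcMod (k := k) (A := G.A0) (B := B) B' D.P0
  let P1' := bcMod (k := k) (A := G.A1) (B := B) B' D.P1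
  let P01' := bcMod (k := k) (A := G.A01) (B := B) B' D.P01
  let l0 : P0' →ₗ[B'] P01' := linearOfSemilinear (G.ρ0 B') r0' hr0'
  let l1 : P1' →ₗ[B'] P01' := linearOfSemilinear (G.ρ1 B') r1' hr1'
  let e0 : B' ⊗[B] D.P0 ≃ₗ[B'] P0' := bcEquiv
  let e1 : B' ⊗[B] D.P1 ≃ₗ[B'] P1' := bcEquiv
  let e01 : B' ⊗[B] D.P01 ≃ₗ[B'] P01' := bcEquiv
  obtain ⟨π0, hπ0, -⟩ := D.exists_retraction0
  obtain ⟨π1, hπ1, -⟩ := D.exists_retraction1
  -- they stay injective, being split over `B`
  have hinj0 : Function.Injective l0 :=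
    injective_of_retraction e0 e01 D.r0 π0 hπ0 l0 fun p ↦ by
      change r0' ((1 : B') • toBcMod (B' := B') D.P0 p) =
        (1 : B') • toBcMod (B' := B') D.P01 (D.r0 p)
      rw [one_smul, one_smul]
      exact hc0 p
  have hinj1 : Function.Injective l1 :=
    injective_of_retraction e1 e01 D.r1 π1 hπ1 l1 fun p ↦ by
      change r1' ((1 : B') • toBcMod (B' := B') D.P1 p) =
        (1 : B') • toBcMod (B' := B') D.P01 (D.r1 p)
      rw [one_smul, one_smul]
      exact hc1 p
  let D' : Datum G B' :=
    { P0 := P0'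
      P1 := P1'
      P01 := P01'
      r0 := l0
      r1 := l1
      r0_smul := hr0'
      r1_smul := hr1'
      r0_inj := hinj0
      r1_inj := hinj1
      -- up to powers, onto: check on pure tensors and add
      r0_surj := fun z ↦ by
        obtain ⟨w, rfl⟩ := e01.surjective z
        induction w using TensorProduct.induction_on with
        | zero => exact ⟨0, 0, by simp⟩
        | tmul b q =>
          obtain ⟨n, p, hp⟩ := D.r0_surj q
          refine ⟨n, b • toBcMod (B' := B') D.P0 p, ?_⟩
          rw [map_smul]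
          change b • r0' (toBcMod (B' := B') D.P0 p) =
            (G.xUnit B' : G.R01 B') ^ n • (b • toBcMod (B' := B') D.P01 q)
          rw [hc0, LinearMap.toAddMonoidHom_coe, hp, toBcMod_smul, map_pow, bcRing_xUnit,
            smul_comm]
        | add v w hv hw =>
          rw [map_add e01]
          exact exists_pow_smul_add (G.ρ0 B').toRingHom r0' hr0' (X := G.X0 B') rfl hv hw
      r1_surj := fun z ↦ by
        obtain ⟨w, rfl⟩ := e01.surjective z
        induction w using TensorProduct.induction_on with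
        | zero => exact ⟨0, 0, by simp⟩
        | tmul b q =>
          obtain ⟨n, p, hp⟩ := D.r1_surj q
          refine ⟨n, b • toBcMod (B' := B') D.P1 p, ?_⟩
          rw [map_smul]
          change b • r1' (toBcMod (B' := B') D.P1 p) =
            (↑(G.xUnit B')⁻¹ : G.R01 B') ^ n • (b • toBcMod (B' := B') D.P01 q)
          rw [hc1, LinearMap.toAddMonoidHom_coe, hp, toBcMod_smul, map_pow, bcRing_xUnit_inv,
            smul_comm]
        | add v w hv hw =>
          rw [map_add e01]
          exact exists_pow_smul_add (G.ρ1 B').toRingHom r1' hr1' (X := G.Y1 B') rfl hv hw }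
  exact ⟨D', ⟨{
    f0 := toBcMod (B' := B') D.P0
    f1 := toBcMod (B' := B') D.P1
    f01 := toBcMod (B' := B') D.P01
    smul0 := toBcMod_smul
    smul1 := toBcMod_smul
    smul01 := toBcMod_smul
    comm0 := hc0
    comm1 := hc1
    span0 := span_toBcMod
    span1 := span_toBcMod
    span01 := span_toBcMod }⟩⟩

end Datum

end

end Fermat.PIC
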