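import Mathlib

/-!
# A semilinear map of invertible modules with spanning image is a base change

`bcMap` is the comparison map from the base change, and `bcMap_bijective` shows it bijective.
-/

set_option autoImplicit false

universe u

open scoped TensorProduct

namespace Fermat.PIC

noncomputable section

variable {k : Type u} [Field k] {A : Type u} [CommRing A] [Algebra k A]
  {B B' : Type u} [CommRing B] [CommRing B'] [Algebra k B] [Algebra k B'] [Algebra B B']
  [IsScalarTower k B B']
  {P P' : Type u} [AddCommGroup P] [AddCommGroup P'] [Module (B ⊗[k] A) P]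
  [Module (B' ⊗[k] A) P'] [Module B P] [Module B' P'] [IsScalarTower B (B ⊗[k] A) P]
  [IsScalarTower B' (B' ⊗[k] A) P']

/-- The map `B ⊗ A → B' ⊗ A` of a base change. -/
abbrev bcRing : B ⊗[k] A →ₐ[k] B' ⊗[k] A :=
  Algebra.TensorProduct.map (IsScalarTower.toAlgHom k B B') (AlgHom.id k A)

/-- The map `b' ⊗ a ↦ (p ↦ b' ⊗ a p)`. -/
def bcCoef : B' ⊗[k] A →+ (P →+ B' ⊗[B] P) :=
  TensorProduct.liftAddHom
    (AddMonoidHom.mk' (fun b' : B' ↦ AddMonoidHom.mk' (fun a : A ↦ AddMonoidHom.mk'
      (fun p : P ↦ b' ⊗ₜ[B] (((1 : B) ⊗ₜ[k] a : B ⊗[k] A) • p)) fun p q ↦ by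
        rw [smul_add, TensorProduct.tmul_add]) fun a c ↦ by
        ext p
        simp [TensorProduct.tmul_add, add_smul]) fun b c ↦ by
        ext a p
        simp [TensorProduct.add_tmul])
    fun c b' a ↦ by
      ext p
      simp only [AddMonoidHom.mk'_apply]
      rw [TensorProduct.tmul_smul (R := k) (r := c), ← TensorProduct.smul_tmul',
        ← algebraMap_smul B c, ← TensorProduct.tmul_smul]
      congr 1
      rw [← algebraMap_smul (B ⊗[k] A) (algebraMap k B c), ← mul_smul]
      congr 1
      simp [Algebra.TensorProduct.algebraMap_apply, Algebra.smul_def,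
        Algebra.TensorProduct.tmul_mul_tmul]

/-- `bcCoef` on pure tensors. -/
lemma bcCoef_tmul (b' : B') (a : A) (p : P) :
    bcCoef (B := B) (b' ⊗ₜ[k] a) p = b' ⊗ₜ[B] (((1 : B) ⊗ₜ[k] a : B ⊗[k] A) • p) := rfl

/-- `bcCoef` is balanced over `B ⊗ A`. -/
lemma bcCoef_smul (r : B ⊗[k] A) (r' : B' ⊗[k] A) (p : P) :
    bcCoef (B := B) (bcRing (B' := B') r * r') p = bcCoef (B := B) r' (r • p) := by
  induction r using TensorProduct.induction_on with
  | zero => simp
  | add x y hx hy =>
    rw [map_add, add_mul, map_add, AddMonoidHom.add_apply, hx, hy, add_smul, map_add]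
  | tmul b c =>
    induction r' using TensorProduct.induction_on with
    | zero => simp
    | add x y hx hy =>
      rw [mul_add, map_add, map_add, AddMonoidHom.add_apply, AddMonoidHom.add_apply, hx, hy]
    | tmul b' a =>
      change bcCoef ((algebraMap B B' b ⊗ₜ[k] c) * (b' ⊗ₜ[k] a)) p = _
      rw [Algebra.TensorProduct.tmul_mul_tmul, bcCoef_tmul, bcCoef_tmul, ← Algebra.smul_def b b',
        TensorProduct.smul_tmul, ← algebraMap_smul (B ⊗[k] A) b, ← mul_smul, ← mul_smul]
      congr 2
      simp [Algebra.TensorProduct.algebraMap_apply, Algebra.TensorProduct.tmul_mul_tmul,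
        mul_comm]

/-- The comparison with the base change along `B ⊗ A → B' ⊗ A` is injective. -/
lemma exists_bcComparison :
    letI := (bcRing (k := k) (A := A) (B := B) (B' := B')).toRingHom.toAlgebra
    ∃ h : B' ⊗[B] P →+ (B' ⊗[k] A) ⊗[B ⊗[k] A] P, Function.Injective h ∧
      ∀ (b' : B') (p : P), h (b' ⊗ₜ[B] p) = (b' ⊗ₜ[k] (1 : A)) ⊗ₜ[B ⊗[k] A] p := by
  let := (bcRing (k := k) (A := A) (B := B) (B' := B')).toRingHom.toAlgebra
  let R := B ⊗[k] A
  let R' := B' ⊗[k] A
  let l : R' ⊗[R] P →+ B' ⊗[B] P :=
    TensorProduct.liftAddHom (bcCoef (B := B)) fun r r' p ↦ by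
      rw [Algebra.smul_def]; exact bcCoef_smul r r' p
  let h : B' ⊗[B] P →+ R' ⊗[R] P := TensorProduct.liftAddHom
    (AddMonoidHom.mk' (fun b' : B' ↦
      AddMonoidHom.mk' (fun p : P ↦ ((b' ⊗ₜ[k] (1 : A)) : R') ⊗ₜ[R] p)
      fun p q ↦ by rw [TensorProduct.tmul_add]) fun b c ↦ by
        ext p
        simp [TensorProduct.add_tmul])
    fun b b' p ↦ by
      simp only [AddMonoidHom.mk'_apply]
      rw [← algebraMap_smul R b p, ← TensorProduct.smul_tmul]
      congr 1
      rw [Algebra.smul_def b b', Algebra.smul_def (algebraMap B R b)]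
      change _ = bcRing (algebraMap B R b) * _
      simp [R, Algebra.TensorProduct.algebraMap_apply, Algebra.TensorProduct.tmul_mul_tmul]
  have hlh : ∀ z, l (h z) = z := by
    intro z
    induction z using TensorProduct.induction_on with
    | zero => simp
    | add x y hx hy => rw [map_add, map_add, hx, hy]
    | tmul b' p =>
      change bcCoef (B := B) (b' ⊗ₜ[k] (1 : A)) p = _
      rw [bcCoef_tmul, ← Algebra.TensorProduct.one_def, one_smul]
  exact ⟨h, Function.LeftInverse.injective hlh, fun _ _ ↦ rfl⟩

variable (f : P →+ P') (hf : ∀ (a : B ⊗[k] A) p, f (a • p) = bcRing (B' := B') a • f p)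

include hf

/-- A semilinear map carries scalars of `B` to their images in `B'`. -/
lemma bc_smul (b : B) (p : P) : f (b • p) = algebraMap B B' b • f p := by
  rw [← algebraMap_smul (B ⊗[k] A) b p, hf, ← algebraMap_smul (B' ⊗[k] A) (algebraMap B B' b)]
  simp [Algebra.TensorProduct.algebraMap_apply, IsScalarTower.toAlgHom_apply]

/-- The canonical map from the base change. -/
def bcMap : B' ⊗[B] P →+ P' :=
  TensorProduct.liftAddHom
    (AddMonoidHom.mk' (fun b' : B' ↦ AddMonoidHom.mk' (fun p ↦ b' • f p) fun p q ↦ by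
      rw [map_add, smul_add]) fun b c ↦ by ext p; exact add_smul b c (f p))
    fun b b' p ↦ by
      simp only [AddMonoidHom.mk'_apply]
      rw [bc_smul f hf, ← mul_smul, Algebra.smul_def, mul_comm]

/-- The map from the base change on a pure tensor. -/
@[simp]
lemma bcMap_tmul (b' : B') (p : P) : bcMap f hf (b' ⊗ₜ p) = b' • f p := rfl

/-- The map from the base change is linear over the new base. -/
lemma bcMap_smul (b' : B') (z : B' ⊗[B] P) : bcMap f hf (b' • z) = b' • bcMap f hf z := by
  induction z using TensorProduct.induction_on with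
  | zero => simp
  | tmul c p => simp [TensorProduct.smul_tmul', mul_smul]
  | add z w hz hw => rw [smul_add, map_add, map_add, hz, hw, smul_add]

/-- A semilinear map with spanning image gives a bijective base change map. -/
lemma bcMap_bijective [Module.Invertible (B ⊗[k] A) P] [Module.Invertible (B' ⊗[k] A) P']
    (hspan : Submodule.span (B' ⊗[k] A) (Set.range f) = ⊤) :
    Function.Bijective (bcMap f hf) := by
  let := (bcRing (k := k) (A := A) (B := B) (B' := B')).toRingHom.toAlgebra
  let R := B ⊗[k] A
  let R' := B' ⊗[k] A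
  -- `R' ⊗ P → P'`, onto between invertible modules, so bijective
  let g : R' ⊗[R] P →+ P' := TensorProduct.liftAddHom
    (AddMonoidHom.mk' (fun r : R' ↦ AddMonoidHom.mk' (fun p ↦ r • f p) fun p q ↦ by
      rw [map_add, smul_add]) fun a c ↦ by ext p; exact add_smul a c (f p))
    fun a r p ↦ by
      simp only [AddMonoidHom.mk'_apply]
      rw [hf, ← mul_smul, Algebra.smul_def, mul_comm]
      rfl
  let gl : R' ⊗[R] P →ₗ[R'] P' :=
    { toFun := g
      map_add' := map_add g
      map_smul' := fun a z ↦ by
        induction z using TensorProduct.induction_on with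
        | zero => simp
        | tmul c p => simp [g, TensorProduct.smul_tmul', mul_smul]
        | add z w hz hw => rw [smul_add, map_add, map_add, smul_add, hz, hw] }
  have hgb : Function.Bijective gl := by
    refine Module.Invertible.bijective_of_surjective (LinearMap.range_eq_top.mp ?_)
    rw [eq_top_iff, ← hspan, Submodule.span_le]
    rintro _ ⟨p, rfl⟩
    exact ⟨1 ⊗ₜ p, by simp [gl, g]⟩
  -- `bcMap` is this composed with the injective comparison map
  obtain ⟨h, hinj, hh⟩ := exists_bcComparison (k := k) (A := A) (B := B) (B' := B') (P := P)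
  have hgh : ∀ z, bcMap f hf z = gl (h z) := by
    intro z
    induction z using TensorProduct.induction_on with
    | zero => simp
    | add x y hx hy => rw [map_add, map_add, map_add, hx, hy]
    | tmul b' p =>
      rw [hh]
      change b' • f p = ((b' ⊗ₜ[k] (1 : A)) : R') • f p
      rw [← algebraMap_smul R' b']
      rfl
  refine ⟨fun a c hac ↦ ?_, fun y ↦ ?_⟩
  · rw [hgh, hgh] at hac
    exact hinj (hgb.1 hac)
  · obtain ⟨w, rfl⟩ := hgb.2 y
    induction w using TensorProduct.induction_on with
    | zero => exact ⟨0, by simp⟩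
    | add x y hx hy =>
      obtain ⟨a, ha⟩ := hx
      obtain ⟨c, hc⟩ := hy
      exact ⟨a + c, by rw [map_add, map_add, ha, hc]⟩
    | tmul r p =>
      induction r using TensorProduct.induction_on with
      | zero => exact ⟨0, by simp⟩
      | add x y hx hy =>
        obtain ⟨a, ha⟩ := hx
        obtain ⟨c, hc⟩ := hy
        exact ⟨a + c, by rw [TensorProduct.add_tmul, map_add, map_add, ha, hc]⟩
      | tmul b' a =>
        refine ⟨b' ⊗ₜ (((1 : B) ⊗ₜ[k] a : R) • p), ?_⟩
        change b' • f (((1 : B) ⊗ₜ[k] a : R) • p) = ((b' ⊗ₜ[k] a) : R') • f p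
        rw [hf, ← algebraMap_smul R' b', ← mul_smul]
        congr 1
        simp [R', bcRing, Algebra.TensorProduct.algebraMap_apply,
          Algebra.TensorProduct.tmul_mul_tmul]

end

end Fermat.PIC
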