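import Mathlib

/-!
# Ideals with a prescribed basis of the quotient

Ideals of `B ⊗ A` whose quotient has prescribed elements of `A` as a basis over `B`, and their
classifying ring.
-/

set_option autoImplicit false

universe u

open scoped TensorProduct

namespace Fermat.PIC

noncomputable section

variable {k : Type u} [Field k] {A : Type u} [CommRing A] [Algebra k A] {g : ℕ} (b : Fin g → A)
  {B B' : Type u} [CommRing B] [Algebra k B] [CommRing B'] [Algebra k B']

variable (k B) in
/-- The linear combinations of the chosen elements. -/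
def basisMap : (Fin g → B) →ₗ[B] B ⊗[k] A :=
  Fintype.linearCombination B fun j ↦ (1 : B) ⊗ₜ[k] b j

/-- A combination of the chosen elements, written out. -/
lemma basisMap_apply (c : Fin g → B) : basisMap k b B c = ∑ j, c j • ((1 : B) ⊗ₜ[k] b j) := rfl

/-- The quotient has the chosen elements as a basis. -/
def IsBasisIdeal (I : Ideal (B ⊗[k] A)) : Prop :=
  Function.Bijective fun c ↦ Ideal.Quotient.mk I (basisMap k b B c)

variable (k) in
/-- Coordinates of the elements of `A` in a quotient of `B ⊗ A` with the given basis. -/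
@[ext]
structure BasisCoord (B : Type u) [CommRing B] [Algebra k B] where
  /-- The coordinates in the basis `b` of the images of the elements of `A`. -/
  lam : A →ₗ[k] (Fin g → B)
  /-- The coordinates of `a c` are those of `c` applied to those of the products `a b l`. -/
  lam_mul : ∀ a c j, lam (a * c) j = ∑ l, lam c l * lam (a * b l) j
  /-- The elements `b l` have the standard coordinates. -/
  lam_basis : ∀ l j, lam (b l) j = if l = j then 1 else 0

namespace BasisCoord

variable {b}

/-- The linear extension of the coordinates. -/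
def ext' (c : BasisCoord k b B) : B ⊗[k] A →ₗ[B] (Fin g → B) :=
  TensorProduct.AlgebraTensorModule.lift
    (LinearMap.toSpanSingleton B _ c.lam)

/-- The extended coordinates on a pure tensor. -/
@[simp]
lemma ext'_tmul (c : BasisCoord k b B) (x : B) (a : A) : c.ext' (x ⊗ₜ[k] a) = x • c.lam a := rfl

/-- Coordinates of a product are given by the multiplication table. -/
lemma ext'_one_mul (c : BasisCoord k b B) (a : A) (r : B ⊗[k] A) (j : Fin g) :
    c.ext' (((1 : B) ⊗ₜ[k] a) * r) j = ∑ l, c.ext' r l * c.lam (a * b l) j := by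
  induction r using TensorProduct.induction_on with
  | zero => simp
  | tmul x a' =>
    rw [Algebra.TensorProduct.tmul_mul_tmul, ext'_tmul, ext'_tmul, one_mul, Pi.smul_apply,
      smul_eq_mul, c.lam_mul, Finset.mul_sum]
    refine Finset.sum_congr rfl fun l _ ↦ ?_
    rw [Pi.smul_apply, smul_eq_mul, mul_assoc]
  | add v w hv hw =>
    rw [mul_add, map_add, Pi.add_apply, hv, hw, map_add, ← Finset.sum_add_distrib]
    exact Finset.sum_congr rfl fun l _ ↦ by rw [Pi.add_apply, add_mul]

/-- The ideal of the elements with zero coordinates. -/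
def ideal (c : BasisCoord k b B) : Ideal (B ⊗[k] A) :=
  { carrier := {r | c.ext' r = 0}
    add_mem' := fun {v w} hv hw ↦ by simp_all
    zero_mem' := by simp
    smul_mem' := fun v w hw ↦ by
      simp only [Set.mem_ofPred_eq, smul_eq_mul] at hw ⊢
      induction v using TensorProduct.induction_on with
      | zero => simp
      | tmul x a =>
        have : (x ⊗ₜ[k] a : B ⊗[k] A) * w = x • (((1 : B) ⊗ₜ[k] a) * w) := by
          rw [← smul_mul_assoc, TensorProduct.smul_tmul', smul_eq_mul, mul_one]
        rw [this, map_smul]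
        ext j
        rw [Pi.smul_apply, c.ext'_one_mul, hw]
        simp
      | add v v' hv hv' => rw [add_mul, map_add, hv, hv', add_zero] }

/-- The ideal consists of the elements with zero coordinates. -/
lemma mem_ideal (c : BasisCoord k b B) {r : B ⊗[k] A} : r ∈ c.ideal ↔ c.ext' r = 0 := Iff.rfl

/-- A combination of the chosen elements has those coefficients as coordinates. -/
lemma ext'_basisMap (c : BasisCoord k b B) (w : Fin g → B) : c.ext' (basisMap k b B w) = w := by
  ext j
  simp [basisMap_apply, c.lam_basis]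

/-- An element is congruent to the combination given by its coordinates. -/
lemma sub_mem_ideal (c : BasisCoord k b B) (r : B ⊗[k] A) :
    r - basisMap k b B (c.ext' r) ∈ c.ideal := by
  rw [mem_ideal, map_sub, c.ext'_basisMap, sub_self]

/-- The ideal of coordinates has the chosen elements as a basis of the quotient. -/
lemma isBasisIdeal (c : BasisCoord k b B) : IsBasisIdeal b c.ideal := by
  refine ⟨fun v w h ↦ ?_, fun q ↦ ?_⟩
  · rw [Ideal.Quotient.mk_eq_mk_iff_sub_mem, ← map_sub, mem_ideal, c.ext'_basisMap,
      sub_eq_zero] at h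
    exact h
  · obtain ⟨r, rfl⟩ := Ideal.Quotient.mk_surjective q
    exact ⟨c.ext' r, (Ideal.Quotient.mk_eq_mk_iff_sub_mem _ _).mpr
      (by rw [← neg_sub]; exact c.ideal.neg_mem (c.sub_mem_ideal r))⟩

/-- Base change of coordinates. -/
def map (φ : B →ₐ[k] B') (c : BasisCoord k b B) : BasisCoord k b B' where
  lam := (φ.toLinearMap.compLeft (Fin g)).comp c.lam
  lam_mul a a' j := by
    change φ (c.lam (a * a') j) = ∑ l, φ (c.lam a' l) * φ (c.lam (a * b l) j)
    rw [c.lam_mul, map_sum]
    exact Finset.sum_congr rfl fun l _ ↦ map_mul φ _ _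
  lam_basis l j := by
    change φ (c.lam (b l) j) = _
    rw [c.lam_basis]
    split_ifs <;> simp

/-- The base changed coordinates are the images of the coordinates. -/
lemma map_lam (φ : B →ₐ[k] B') (c : BasisCoord k b B) (a : A) (j : Fin g) :
    (c.map φ).lam a j = φ (c.lam a j) := rfl

/-- Extended coordinates commute with base change. -/
lemma ext'_map (φ : B →ₐ[k] B') (c : BasisCoord k b B) (r : B ⊗[k] A) (j : Fin g) :
    (c.map φ).ext' (Algebra.TensorProduct.map φ (AlgHom.id k A) r) j = φ (c.ext' r j) := by
  induction r using TensorProduct.induction_on with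
  | zero => simp
  | tmul x a => simp [map_lam]
  | add v w hv hw => simp only [map_add, Pi.add_apply, hv, hw]

/-- The ideal of coordinates commutes with change of coefficients. -/
lemma ideal_map (φ : B →ₐ[k] B') (c : BasisCoord k b B) :
    c.ideal.map (Algebra.TensorProduct.map φ (AlgHom.id k A)) = (c.map φ).ideal := by
  refine le_antisymm (Ideal.map_le_iff_le_comap.mpr fun r hr ↦ ?_) fun r hr ↦ ?_
  · rw [Ideal.mem_comap, mem_ideal]
    ext j
    rw [c.ext'_map, (mem_ideal c).mp hr]
    simp
  · set I := c.ideal.map (Algebra.TensorProduct.map φ (AlgHom.id k A))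
    have key : ∀ r : B' ⊗[k] A, r - basisMap k b B' ((c.map φ).ext' r) ∈ I := by
      intro r
      induction r using TensorProduct.induction_on with
      | zero => simp
      | add v w hv hw =>
        have h := I.add_mem hv hw
        rw [map_add, map_add]
        convert! h using 1
        abel
      | tmul x a =>
        have h1 := Ideal.mem_map_of_mem (Algebra.TensorProduct.map φ (AlgHom.id k A))
          (c.sub_mem_ideal ((1 : B) ⊗ₜ[k] a))
        have e : (x ⊗ₜ[k] a : B' ⊗[k] A) - basisMap k b B' ((c.map φ).ext' (x ⊗ₜ[k] a)) =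
            x • (Algebra.TensorProduct.map φ (AlgHom.id k A)
              ((1 : B) ⊗ₜ[k] a - basisMap k b B (c.ext' ((1 : B) ⊗ₜ[k] a)))) := by
          rw [map_sub, smul_sub, Algebra.TensorProduct.map_tmul, TensorProduct.smul_tmul',
            smul_eq_mul, map_one, mul_one, ext'_tmul, map_smul, AlgHom.id_apply]
          congr 2
          rw [ext'_tmul, one_smul, basisMap_apply, basisMap_apply, map_sum]
          refine Finset.sum_congr rfl fun j _ ↦ ?_
          simp [map_lam, Algebra.smul_def]
        rw [e, Algebra.smul_def]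
        exact I.mul_mem_left _ h1
    have := key r
    rwa [(mem_ideal _).mp hr, map_zero, sub_zero] at this

/-- Coordinates of an ideal with the given basis. -/
def ofIdeal {I : Ideal (B ⊗[k] A)} (hI : IsBasisIdeal b I) : BasisCoord k b B :=
  let e : (Fin g → B) ≃ₗ[B] (B ⊗[k] A) ⧸ I :=
    LinearEquiv.ofBijective ((Ideal.Quotient.mkₐ B I).toLinearMap ∘ₗ basisMap k b B) hI
  let q : B ⊗[k] A →ₗ[B] (Fin g → B) := e.symm.toLinearMap ∘ₗ (Ideal.Quotient.mkₐ B I).toLinearMap
  have hq : ∀ r, Ideal.Quotient.mk I (basisMap k b B (q r)) = Ideal.Quotient.mk I r := fun r ↦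
    e.apply_symm_apply (Ideal.Quotient.mk I r)
  { lam := (q.restrictScalars k).comp
      (Algebra.TensorProduct.includeRight : A →ₐ[k] B ⊗[k] A).toLinearMap
    lam_mul := fun a a' j ↦ by
      change q ((1 : B) ⊗ₜ[k] (a * a')) j =
        ∑ l, q ((1 : B) ⊗ₜ[k] a') l * q ((1 : B) ⊗ₜ[k] (a * b l)) j
      have h : q ((1 : B) ⊗ₜ[k] (a * a')) =
          ∑ l, q ((1 : B) ⊗ₜ[k] a') l • q ((1 : B) ⊗ₜ[k] (a * b l)) := by
        apply hI.1
        change Ideal.Quotient.mk I _ = Ideal.Quotient.mk I _
        rw [hq, map_sum (basisMap k b B), map_sum, ← mul_one (1 : B),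
          ← Algebra.TensorProduct.tmul_mul_tmul, map_mul, ← hq ((1 : B) ⊗ₜ[k] a'), ← map_mul,
          basisMap_apply, Finset.mul_sum, map_sum, mul_one]
        refine Finset.sum_congr rfl fun l _ ↦ ?_
        rw [map_smul (basisMap k b B), mul_smul_comm, Algebra.TensorProduct.tmul_mul_tmul, one_mul,
          Algebra.smul_def, Algebra.smul_def, map_mul, map_mul, hq]
      simpa using congrFun h j
    lam_basis := fun l j ↦ by
      change q ((1 : B) ⊗ₜ[k] b l) j = _
      have h : q ((1 : B) ⊗ₜ[k] b l) = fun j ↦ if l = j then 1 else 0 := by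
        apply hI.1
        change Ideal.Quotient.mk I _ = Ideal.Quotient.mk I _
        rw [hq, basisMap_apply]
        simp [ite_smul]
      rw [h] }

/-- The coordinates of an ideal give the ideal back. -/
lemma ideal_ofIdeal {I : Ideal (B ⊗[k] A)} (hI : IsBasisIdeal b I) : (ofIdeal hI).ideal = I := by
  have key : ∀ r, Ideal.Quotient.mk I (basisMap k b B ((ofIdeal hI).ext' r)) =
      Ideal.Quotient.mk I r := by
    intro r
    induction r using TensorProduct.induction_on with
    | zero => simp
    | add v w hv hw => simp only [map_add, hv, hw]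
    | tmul x a =>
      have h1 : Ideal.Quotient.mk I (basisMap k b B ((ofIdeal hI).lam a)) =
          Ideal.Quotient.mk I ((1 : B) ⊗ₜ[k] a) :=
        (LinearEquiv.ofBijective ((Ideal.Quotient.mkₐ B I).toLinearMap ∘ₗ basisMap k b B)
          hI).apply_symm_apply _
      rw [ext'_tmul, map_smul, Algebra.smul_def, map_mul, h1, ← map_mul]
      simp [Algebra.TensorProduct.algebraMap_apply]
  ext r
  rw [mem_ideal, ← Ideal.Quotient.eq_zero_iff_mem, ← key r]
  exact ⟨fun h ↦ by rw [h, map_zero, map_zero], fun h ↦ hI.1 (h.trans (by simp))⟩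

/-- The ideal determines the coordinates. -/
lemma ideal_injective {c c' : BasisCoord k b B} (h : c.ideal = c'.ideal) : c = c' := by
  apply BasisCoord.ext
  apply LinearMap.ext
  intro a
  have := c.sub_mem_ideal ((1 : B) ⊗ₜ[k] a)
  rw [h, mem_ideal, map_sub, c'.ext'_basisMap, ext'_tmul, ext'_tmul, one_smul, one_smul,
    sub_eq_zero] at this
  exact this.symm

end BasisCoord

/-- The quotient by an ideal with a basis is finite. -/
lemma IsBasisIdeal.finite {I : Ideal (B ⊗[k] A)} (hI : IsBasisIdeal b I) :
    Module.Finite B ((B ⊗[k] A) ⧸ I) :=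
  Module.Finite.equiv
    (LinearEquiv.ofBijective ((Ideal.Quotient.mkₐ B I).toLinearMap ∘ₗ basisMap k b B) hI)

/-- The quotient by an ideal with a basis is free. -/
lemma IsBasisIdeal.free {I : Ideal (B ⊗[k] A)} (hI : IsBasisIdeal b I) :
    Module.Free B ((B ⊗[k] A) ⧸ I) :=
  Module.Free.of_equiv
    (LinearEquiv.ofBijective ((Ideal.Quotient.mkₐ B I).toLinearMap ∘ₗ basisMap k b B) hI)

section Ring

variable (k) in
/-- The relations defining the classifying ring. -/
def basisRels : Set (MvPolynomial (A × Fin g) k) :=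
  (Set.range fun p : A × A × Fin g ↦
      MvPolynomial.X (p.1 + p.2.1, p.2.2) - MvPolynomial.X (p.1, p.2.2) -
        MvPolynomial.X (p.2.1, p.2.2)) ∪
    (Set.range fun p : k × A × Fin g ↦
      MvPolynomial.X (p.1 • p.2.1, p.2.2) - MvPolynomial.C p.1 * MvPolynomial.X (p.2.1, p.2.2)) ∪
    (Set.range fun p : A × A × Fin g ↦
      MvPolynomial.X (p.1 * p.2.1, p.2.2) -
        ∑ l, MvPolynomial.X (p.2.1, l) * MvPolynomial.X (p.1 * b l, p.2.2)) ∪
    (Set.range fun p : Fin g × Fin g ↦
      MvPolynomial.X (b p.1, p.2) - if p.1 = p.2 then 1 else 0)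

variable (k) in
/-- The ring classifying ideals with the given basis of the quotient. -/
abbrev BasisRing : Type u := MvPolynomial (A × Fin g) k ⧸ Ideal.span (basisRels k b)

variable (k) in
/-- The universal coordinates. -/
def univCoord : BasisCoord k b (BasisRing k b) where
  lam :=
    { toFun := fun a j ↦ Ideal.Quotient.mk _ (MvPolynomial.X (a, j))
      map_add' := fun a c ↦ funext fun j ↦ by
        rw [Pi.add_apply, ← map_add, Ideal.Quotient.mk_eq_mk_iff_sub_mem, ← sub_sub]
        exact Ideal.subset_span (Or.inl (Or.inl (Or.inl ⟨(a, c, j), rfl⟩)))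
      map_smul' := fun r a ↦ funext fun j ↦ by
        rw [Pi.smul_apply, RingHom.id_apply, ← Ideal.Quotient.mkₐ_eq_mk k, ← map_smul,
          MvPolynomial.smul_eq_C_mul, Ideal.Quotient.mkₐ_eq_mk,
          Ideal.Quotient.mk_eq_mk_iff_sub_mem]
        exact Ideal.subset_span (Or.inl (Or.inl (Or.inr ⟨(r, a, j), rfl⟩))) }
  lam_mul a c j := by
    change Ideal.Quotient.mk _ (MvPolynomial.X (a * c, j)) =
      ∑ l, Ideal.Quotient.mk _ (MvPolynomial.X (c, l)) *
        Ideal.Quotient.mk _ (MvPolynomial.X (a * b l, j))
    simp only [← map_mul, ← map_sum, Ideal.Quotient.mk_eq_mk_iff_sub_mem]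
    exact Ideal.subset_span (Or.inl (Or.inr ⟨(a, c, j), rfl⟩))
  lam_basis l j := by
    change Ideal.Quotient.mk _ (MvPolynomial.X (b l, j)) = _
    rw [← map_one (Ideal.Quotient.mk (Ideal.span (basisRels k b))),
      ← map_zero (Ideal.Quotient.mk (Ideal.span (basisRels k b))),
      ← apply_ite (Ideal.Quotient.mk (Ideal.span (basisRels k b))),
      Ideal.Quotient.mk_eq_mk_iff_sub_mem]
    exact Ideal.subset_span (Or.inr ⟨(l, j), rfl⟩)

variable {b}

/-- The classifying map. -/
def BasisCoord.toHom (c : BasisCoord k b B) : BasisRing k b →ₐ[k] B :=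
  Ideal.Quotient.liftₐ _ (MvPolynomial.aeval fun p ↦ c.lam p.1 p.2) fun r hr ↦ by
    refine Submodule.span_induction ?_ (map_zero _) (fun v w _ _ hv hw ↦ by rw [map_add, hv, hw,
      add_zero]) (fun v w _ hw ↦ by rw [smul_eq_mul, map_mul, hw, mul_zero]) hr
    rintro _ (((⟨⟨a, a', j⟩, rfl⟩ | ⟨⟨t, a, j⟩, rfl⟩) | ⟨⟨a, a', j⟩, rfl⟩) | ⟨⟨l, j⟩, rfl⟩)
    · simp
    · simp only [map_sub, map_mul, MvPolynomial.aeval_X, MvPolynomial.aeval_C, map_smul,
        Pi.smul_apply, ← Algebra.smul_def, sub_self]
    · simp only [map_sub, map_sum, map_mul, MvPolynomial.aeval_X, c.lam_mul a a' j, sub_self]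
    · rw [map_sub, MvPolynomial.aeval_X, c.lam_basis]
      dsimp only
      split_ifs <;> simp

/-- The classifying map sends universal coordinates to the given ones. -/
lemma BasisCoord.toHom_lam (c : BasisCoord k b B) (a : A) (j : Fin g) :
    c.toHom ((univCoord k b).lam a j) = c.lam a j :=
  MvPolynomial.aeval_X _ _

/-- The coordinates are pulled back from the universal ones. -/
lemma BasisCoord.map_toHom (c : BasisCoord k b B) : (univCoord k b).map c.toHom = c :=
  BasisCoord.ext (LinearMap.ext fun a ↦ funext fun j ↦ c.toHom_lam a j)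

/-- A map from the classifying ring is determined by the coordinates it gives. -/
lemma BasisCoord.toHom_unique {φ ψ : BasisRing k b →ₐ[k] B}
    (h : (univCoord k b).map φ = (univCoord k b).map ψ) : φ = ψ := by
  refine Ideal.Quotient.algHom_ext _ (MvPolynomial.algHom_ext fun p ↦ ?_)
  have := congrArg (fun c : BasisCoord k b B ↦ c.lam p.1 p.2) h
  simpa [BasisCoord.map_lam, univCoord] using this

/-- The classifying ring is of finite type if `A` is. -/
instance finiteType_basisRing [Algebra.FiniteType k A] :
    Algebra.FiniteType k (BasisRing k b) := by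
  classical
  obtain ⟨s, hs⟩ := Algebra.FiniteType.out (R := k) (A := A)
  let v : A → Fin g → BasisRing k b := fun a j ↦ (univCoord k b).lam a j
  -- generators: the coordinates of `1` and of generators of `A` times `b l`
  let T : Finset (BasisRing k b) :=
    Finset.univ.image (fun j ↦ v 1 j) ∪
      (s ×ˢ (Finset.univ : Finset (Fin g × Fin g))).image fun p ↦ v (p.1 * b p.2.1) p.2.2
  let S := Algebra.adjoin k (T : Set (BasisRing k b))
  refine ⟨⟨T, ?_⟩⟩
  -- the multiplication rule puts all other coordinates in the algebra they generate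
  have key : ∀ a : A, (∀ j, v a j ∈ S) ∧ ∀ l j, v (a * b l) j ∈ S := by
    intro a
    have ha : a ∈ Algebra.adjoin k (s : Set A) := hs ▸ trivial
    induction ha using Algebra.adjoin_induction with
    | mem a ha =>
      have h2 : ∀ l j, v (a * b l) j ∈ S := fun l j ↦ Algebra.subset_adjoin (Finset.mem_coe.mpr
        (Finset.mem_union_right _ (Finset.mem_image.mpr ⟨(a, l, j),
          Finset.mem_product.mpr ⟨ha, Finset.mem_univ _⟩, rfl⟩)))
      refine ⟨fun j ↦ ?_, h2⟩
      have h := (univCoord k b).lam_mul a 1 j
      rw [mul_one] at h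
      change (univCoord k b).lam a j ∈ S
      rw [h]
      exact S.sum_mem fun l _ ↦ S.mul_mem (Algebra.subset_adjoin (Finset.mem_coe.mpr
        (Finset.mem_union_left _ (Finset.mem_image.mpr ⟨l, Finset.mem_univ _, rfl⟩)))) (h2 l j)
    | algebraMap r =>
      refine ⟨fun j ↦ ?_, fun l j ↦ ?_⟩
      · have : v (algebraMap k A r) j = r • v 1 j := by
          simp only [v, Algebra.algebraMap_eq_smul_one, map_smul, Pi.smul_apply]
        rw [this]
        exact S.smul_mem (Algebra.subset_adjoin (Finset.mem_coe.mpr
          (Finset.mem_union_left _ (Finset.mem_image.mpr ⟨j, Finset.mem_univ _, rfl⟩)))) r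
      · have : v (algebraMap k A r * b l) j = r • v (b l) j := by
          simp only [v, ← Algebra.smul_def, map_smul, Pi.smul_apply]
        rw [this]
        refine S.smul_mem ?_ r
        change (univCoord k b).lam (b l) j ∈ S
        rw [(univCoord k b).lam_basis]
        split_ifs
        · exact S.one_mem
        · exact S.zero_mem
    | add a a' _ _ ha ha' =>
      refine ⟨fun j ↦ ?_, fun l j ↦ ?_⟩
      · simp only [v, map_add, Pi.add_apply]
        exact S.add_mem (ha.1 j) (ha'.1 j)
      · simp only [v, add_mul, map_add, Pi.add_apply]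
        exact S.add_mem (ha.2 l j) (ha'.2 l j)
    | mul a a' _ _ ha ha' =>
      refine ⟨fun j ↦ ?_, fun l j ↦ ?_⟩
      · change (univCoord k b).lam (a * a') j ∈ S
        rw [(univCoord k b).lam_mul]
        exact S.sum_mem fun l _ ↦ S.mul_mem (ha'.1 l) (ha.2 l j)
      · change (univCoord k b).lam (a * a' * b l) j ∈ S
        rw [mul_assoc, (univCoord k b).lam_mul]
        exact S.sum_mem fun m _ ↦ S.mul_mem (ha'.2 l m) (ha.2 m j)
  rw [eq_top_iff]
  rintro z -
  obtain ⟨z, rfl⟩ := Ideal.Quotient.mk_surjective z
  induction z using MvPolynomial.induction_on with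
  | C r => exact S.algebraMap_mem r
  | add p q hp hq => rw [map_add]; exact S.add_mem hp hq
  | mul_X p x hp => rw [map_mul]; exact S.mul_mem hp ((key x.1).1 x.2)

/-- The classifying ring is finitely presented if `A` is of finite type. -/
instance finitePresentation_basisRing [Algebra.FiniteType k A] :
    Algebra.FinitePresentation k (BasisRing k b) :=
  Algebra.FinitePresentation.of_finiteType.mp inferInstance

end Ring

end

end Fermat.PIC
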