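import Fermat.Agent.PIC.Chart.BasisIdeal
import Mathlib

/-!
# Smoothness of the classifying ring of ideals with a basis

The classifying ring of ideals with a basis of the quotient is formally smooth as soon as those
ideals are projective.
-/

set_option autoImplicit false

universe u

open scoped TensorProduct

namespace Fermat.PIC

noncomputable section

variable {k : Type u} [Field k] {A : Type u} [CommRing A] [Algebra k A] {g : ℕ} (b : Fin g → A)

section Lift

variable {C : Type u} [CommRing C] [Algebra k C] (N : Ideal C)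

/-- The reduction map `C ⊗ A → (C ⧸ N) ⊗ A`. -/
abbrev redMap : C ⊗[k] A →ₐ[k] (C ⧸ N) ⊗[k] A :=
  Algebra.TensorProduct.map (Ideal.Quotient.mkₐ k N) (AlgHom.id k A)

/-- The kernel of reduction is generated by the ideal of the base. -/
lemma ker_redMap : RingHom.ker (redMap (A := A) (k := k) N) =
    N.map (Algebra.TensorProduct.includeLeft : C →ₐ[k] C ⊗[k] A) := by
  rw [redMap, Algebra.TensorProduct.rTensor_ker (Ideal.Quotient.mkₐ k N)
    Ideal.Quotient.mk_surjective, AlgHom.ker_coe, Ideal.Quotient.mkₐ_ker]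

/-- Reduction is surjective. -/
lemma redMap_surjective : Function.Surjective (redMap (A := A) (k := k) N) := by
  intro z
  induction z using TensorProduct.induction_on with
  | zero => exact ⟨0, map_zero _⟩
  | tmul x a =>
    obtain ⟨x, rfl⟩ := Ideal.Quotient.mk_surjective x
    exact ⟨x ⊗ₜ a, by simp⟩
  | add v w hv hw =>
    obtain ⟨v', rfl⟩ := hv
    obtain ⟨w', rfl⟩ := hw
    exact ⟨v' + w', map_add _ _ _⟩

/-- The kernel of reduction lies in the multiples by the ideal of the base. -/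
lemma ker_redMap_le : (RingHom.ker (redMap (A := A) (k := k) N)).restrictScalars C ≤
    N • (⊤ : Submodule C (C ⊗[k] A)) := by
  rw [ker_redMap]
  intro z hz
  rw [Submodule.restrictScalars_mem] at hz
  induction hz using Submodule.span_induction with
  | zero => exact zero_mem _
  | add v w _ _ hv hw => exact add_mem hv hw
  | mem z hz =>
    obtain ⟨n, hn, rfl⟩ := hz
    have : (Algebra.TensorProduct.includeLeft : C →ₐ[k] C ⊗[k] A) n = n • (1 : C ⊗[k] A) := by
      rw [← Algebra.algebraMap_eq_smul_one]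
      rfl
    rw [this]
    exact Submodule.smul_mem_smul hn trivial
  | smul r v _ hv =>
    refine Submodule.smul_induction_on hv (fun n hn w _ ↦ ?_) fun v w hv hw ↦ ?_
    · rw [smul_comm]
      exact Submodule.smul_mem_smul hn trivial
    · rw [smul_add]
      exact add_mem hv hw

variable {N}

/-- Two elements reducing to zero along a square-zero ideal multiply to zero. -/
private lemma mul_eq_zero_of_redMap (hN : N ^ 2 = ⊥) {z w : C ⊗[k] A} (hz : redMap (k := k) N z = 0)
    (hw : redMap (k := k) N w = 0) : z * w = 0 := by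
  have h1 : z * w ∈ (RingHom.ker (redMap (k := k) (A := A) N)) ^ 2 := by
    rw [pow_two]
    exact Ideal.mul_mem_mul hz hw
  rw [ker_redMap, ← Ideal.map_pow, hN, Ideal.map_bot] at h1
  exact h1

/-- Vectors lift along the reduction. -/
private lemma exists_vec_lift {m : ℕ} (y : Fin m → (C ⧸ N) ⊗[k] A) :
    ∃ v : Fin m → C ⊗[k] A, (fun i ↦ redMap N (v i)) = y :=
  ⟨fun i ↦ (redMap_surjective N (y i)).choose, funext fun _ ↦ (redMap_surjective N _).choose_spec⟩

/-- The reduction of a combination of the basis elements. -/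
private lemma redMap_basisMap (c : Fin g → C) :
    redMap N (basisMap k b C c) = basisMap k b (C ⧸ N) (fun j ↦ Ideal.Quotient.mk N (c j)) := by
  simp only [basisMap_apply, map_sum]
  refine Finset.sum_congr rfl fun j _ ↦ ?_
  simp [Algebra.smul_def, Algebra.TensorProduct.algebraMap_apply]

/-- A finite projective ideal is cut out over `C` by a lifted idempotent of a free module. -/
private lemma exists_lift_generators (hN : N ^ 2 = ⊥) (I : Ideal ((C ⧸ N) ⊗[k] A))
    [Module.Finite ((C ⧸ N) ⊗[k] A) I] [Module.Projective ((C ⧸ N) ⊗[k] A) I] :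
    ∃ (m : ℕ) (G : (Fin m → C ⊗[k] A) →ₗ[C ⊗[k] A] C ⊗[k] A)
      (E : (Fin m → C ⊗[k] A) →ₗ[C ⊗[k] A] (Fin m → C ⊗[k] A)),
      (∀ v, E (E v) = E v) ∧ (∀ v, redMap N (G (E v)) ∈ I) ∧
      (∀ z ∈ I, ∃ v, redMap N (G (E v)) = z) ∧
      ∀ v, E v = v → redMap N (G v) = 0 → ∀ i, redMap N (v i) = 0 := by
  classical
  set π := redMap (A := A) (k := k) N
  obtain ⟨m, gI, hgI⟩ := Module.Finite.exists_fin' ((C ⧸ N) ⊗[k] A) I
  obtain ⟨s, hs⟩ := Module.projective_lifting_property gI LinearMap.id hgI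
  have hs' : ∀ x, gI (s x) = x := fun x ↦ LinearMap.congr_fun hs x
  -- `I` is the image of an idempotent matrix `ebar`
  let ebar := LinearMap.toMatrix' (s ∘ₗ gI)
  have hebar : IsIdempotentElem ebar := by
    change ebar * ebar = ebar
    rw [← LinearMap.toMatrix'_comp]
    congr 1
    ext x
    simp [hs']
  let πM : Matrix (Fin m) (Fin m) (C ⊗[k] A) →+* Matrix (Fin m) (Fin m) ((C ⧸ N) ⊗[k] A) :=
    π.toRingHom.mapMatrix
  -- lift it to an idempotent, and the generators to arbitrary elements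
  obtain ⟨e, he, hee⟩ := exists_isIdempotentElem_eq_of_ker_isNilpotent πM
    (fun M hM ↦ by
      refine ⟨2, ?_⟩
      rw [pow_two]
      ext i j
      rw [Matrix.mul_apply]
      have h0 : πM M = 0 := hM
      refine Finset.sum_eq_zero fun l _ ↦ mul_eq_zero_of_redMap hN ?_ ?_
      · exact congrFun (congrFun h0 i) l
      · exact congrFun (congrFun h0 l) j)
    ebar ⟨ebar.map (Function.surjInv (redMap_surjective N)), by
      ext i j
      exact Function.surjInv_eq (redMap_surjective N) _⟩ hebar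
  choose gl hgl using fun i ↦ redMap_surjective N (gI (Pi.single i 1) : (C ⧸ N) ⊗[k] A)
  let Gm : (Fin m → C ⊗[k] A) →ₗ[C ⊗[k] A] C ⊗[k] A := Fintype.linearCombination _ gl
  let E : (Fin m → C ⊗[k] A) →ₗ[C ⊗[k] A] (Fin m → C ⊗[k] A) := Matrix.toLin' e
  have hGπ : ∀ v, π (Gm v) = gI (fun i ↦ π (v i)) := by
    intro v
    conv_rhs => rw [pi_eq_sum_univ' (fun i ↦ π (v i))]
    simp only [Gm, Fintype.linearCombination_apply, map_sum, smul_eq_mul, map_mul]
    simp only [map_smul, AddSubmonoidClass.coe_finsetSum, SetLike.val_smul, smul_eq_mul]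
    refine Finset.sum_congr rfl fun i _ ↦ ?_
    rw [show π (gl i) = _ from hgl i]
  have hEπ : ∀ v i, π (E v i) = s (gI (fun j ↦ π (v j))) i := by
    intro v i
    have h2 : (s ∘ₗ gI) (fun j ↦ π (v j)) = Matrix.mulVec ebar (fun j ↦ π (v j)) :=
      (LinearMap.toMatrix'_mulVec _ _).symm
    rw [← LinearMap.comp_apply s gI, h2, ← hee]
    exact RingHom.map_mulVec π.toRingHom e v i
  refine ⟨m, Gm, E, fun v ↦ ?_, fun v ↦ ?_, fun z hz ↦ ?_, fun v hv h0 i ↦ ?_⟩
  · simp only [E, Matrix.toLin'_apply, Matrix.mulVec_mulVec, he.eq]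
  · rw [hGπ]
    exact Submodule.coe_mem _
  · obtain ⟨v, hv⟩ := exists_vec_lift (N := N) (s ⟨z, hz⟩)
    refine ⟨v, ?_⟩
    rw [hGπ, show (fun i ↦ π (E v i)) = s (gI (fun j ↦ π (v j))) from funext (hEπ v), hs', hv, hs']
  · have h3 : gI (fun i ↦ π (v i)) = 0 := by
      ext1
      rw [← hGπ]
      exact h0
    rw [← hv, hEπ, h3, map_zero]
    rfl

/-- The lifted ideal and the basis together span. -/
private lemma surjective_lift_coprod (hN : N ^ 2 = ⊥) {I : Ideal ((C ⧸ N) ⊗[k] A)}
    (hI : IsBasisIdeal b I) {m : ℕ} {G : (Fin m → C ⊗[k] A) →ₗ[C] C ⊗[k] A}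
    (hlift : ∀ z ∈ I, ∃ v, redMap N (G v) = z) :
    Function.Surjective (G.coprod (basisMap k b C)) := by
  set π := redMap (A := A) (k := k) N
  set Φ := G.coprod (basisMap k b C)
  have hsurj0 : ∀ r, ∃ x, π (r - Φ x) = 0 := by
    intro r
    obtain ⟨cbar, hc⟩ := hI.2 (Ideal.Quotient.mk I (π r))
    obtain ⟨c, rfl⟩ : ∃ c : Fin g → C, (fun j ↦ Ideal.Quotient.mk N (c j)) = cbar :=
      ⟨fun j ↦ (Ideal.Quotient.mk_surjective (cbar j)).choose,
        funext fun j ↦ (Ideal.Quotient.mk_surjective (cbar j)).choose_spec⟩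
    obtain ⟨v, hv⟩ := hlift (π r - π (basisMap k b C c)) (by
      rw [redMap_basisMap, ← Ideal.Quotient.mk_eq_mk_iff_sub_mem]
      exact hc.symm)
    refine ⟨(v, c), ?_⟩
    simp only [Φ, LinearMap.coprod_apply, map_sub, map_add]
    rw [show π (G v) = _ from hv]
    abel
  intro r
  have key : ∀ z ∈ N • (⊤ : Submodule C (C ⊗[k] A)), z ∈ LinearMap.range Φ := by
    intro z hz
    refine Submodule.smul_induction_on hz (fun n hn w _ ↦ ?_) fun v w hv hw ↦ add_mem hv hw
    obtain ⟨x, hx⟩ := hsurj0 w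
    refine ⟨n • x, ?_⟩
    rw [map_smul]
    have h0 : n • (w - Φ x) = 0 := by
      rw [Algebra.smul_def]
      refine mul_eq_zero_of_redMap hN ?_ hx
      simp [Algebra.TensorProduct.algebraMap_apply, Ideal.Quotient.eq_zero_iff_mem.mpr hn]
    rw [smul_sub, sub_eq_zero] at h0
    exact h0.symm
  obtain ⟨x, hx⟩ := hsurj0 r
  obtain ⟨y, hy⟩ := key _ (ker_redMap_le N hx)
  exact ⟨x + y, by rw [map_add, hy]; abel⟩

/-- A relation fixed by the idempotent vanishes modulo the square-zero ideal. -/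
private lemma mem_smul_top_of_relation {I : Ideal ((C ⧸ N) ⊗[k] A)} (hI : IsBasisIdeal b I) {m : ℕ}
    {G : (Fin m → C ⊗[k] A) →ₗ[C ⊗[k] A] C ⊗[k] A} (hmem : ∀ v, redMap N (G v) ∈ I)
    {w : Fin m → C ⊗[k] A} {c : Fin g → C} (h : G w + basisMap k b C c = 0)
    (hzero : redMap N (G w) = 0 → ∀ i, redMap N (w i) = 0) :
    (w, c) ∈ N • (⊤ : Submodule C ((Fin m → C ⊗[k] A) × (Fin g → C))) := by
  set π := redMap (A := A) (k := k) N
  have hy' : π (G w) + π (basisMap k b C c) = 0 := by
    rw [← map_add]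
    exact (congrArg π h).trans (map_zero π)
  have hc0 : (fun j ↦ Ideal.Quotient.mk N (c j)) = 0 := by
    apply hI.1
    change Ideal.Quotient.mk I _ = Ideal.Quotient.mk I _
    rw [map_zero, map_zero, Ideal.Quotient.eq_zero_iff_mem, ← redMap_basisMap,
      show π (basisMap k b C c) = -π (G w) from (neg_eq_of_add_eq_zero_right hy').symm]
    exact I.neg_mem (hmem w)
  have hw0 : ∀ i, π (w i) = 0 := hzero (by
    have : π (basisMap k b C c) = 0 := by rw [redMap_basisMap, hc0, map_zero]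
    rwa [this, add_zero] at hy')
  have : (w, c) = ∑ i, LinearMap.inl C _ _ (LinearMap.single C _ i (w i)) +
      ∑ j, LinearMap.inr C _ _ (LinearMap.single C _ j (c j)) := by
    refine Prod.ext ?_ ?_ <;> simp [Prod.fst_sum, Prod.snd_sum, Finset.univ_sum_single]
  rw [this]
  refine add_mem (sum_mem fun i _ ↦ ?_) (sum_mem fun j _ ↦ ?_)
  · have h1 := Submodule.mem_map_of_mem (f := (LinearMap.inl C _ (Fin g → C)).comp
      (LinearMap.single C (fun _ : Fin m ↦ C ⊗[k] A) i)) (ker_redMap_le N (hw0 i))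
    rw [Submodule.map_smul''] at h1
    exact Submodule.smul_mono le_rfl le_top h1
  · have hj : c j ∈ N := Ideal.Quotient.eq_zero_iff_mem.mp (congrFun hc0 j)
    have : LinearMap.inr C (Fin m → C ⊗[k] A) _ (LinearMap.single C (fun _ : Fin g ↦ C) j (c j)) =
        c j • LinearMap.inr C (Fin m → C ⊗[k] A) _
          (LinearMap.single C (fun _ : Fin g ↦ C) j 1) := by
      rw [← map_smul, ← map_smul, smul_eq_mul, mul_one]
    rw [this]
    exact Submodule.smul_mem_smul hj trivial

/-- Lifting an ideal with a basis of the quotient along a square-zero ideal. -/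
theorem exists_isBasisIdeal_lift (hN : N ^ 2 = ⊥) (I : Ideal ((C ⧸ N) ⊗[k] A))
    (hI : IsBasisIdeal b I) [Module.Finite ((C ⧸ N) ⊗[k] A) I]
    [Module.Projective ((C ⧸ N) ⊗[k] A) I] :
    ∃ J : Ideal (C ⊗[k] A), IsBasisIdeal b J ∧ J.map (redMap N) = I := by
  classical
  obtain ⟨m, Gm, E, hEE, hmem, hlift, hzero⟩ := exists_lift_generators hN I
  -- `J` is the image of the lifted idempotent; with the basis it spans
  let J : Ideal (C ⊗[k] A) := LinearMap.range (Gm ∘ₗ E)
  let Φ : (Fin m → C ⊗[k] A) × (Fin g → C) →ₗ[C] C ⊗[k] A :=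
    ((Gm ∘ₗ E).restrictScalars C).coprod (basisMap k b C)
  have hΦ : Function.Surjective Φ :=
    surjective_lift_coprod b hN hI (G := (Gm ∘ₗ E).restrictScalars C) hlift
  refine ⟨J, ⟨?_, fun q ↦ ?_⟩, ?_⟩
  · intro c c' hcc
    rw [Ideal.Quotient.mk_eq_mk_iff_sub_mem, ← map_sub] at hcc
    obtain ⟨v, hv⟩ := hcc
    rw [← sub_eq_zero]
    set d := c - c'
    let p : (Fin m → C ⊗[k] A) × (Fin g → C) →ₗ[C] (Fin m → C ⊗[k] A) × (Fin g → C) :=
      (E.restrictScalars C).prodMap LinearMap.id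
    have hΦp : ∀ x, Φ (p x) = Φ x := fun x ↦ by simp [Φ, p, hEE]
    have hK : ∀ y, Φ y = 0 → p y = y →
        y ∈ N • (⊤ : Submodule C ((Fin m → C ⊗[k] A) × (Fin g → C))) := fun ⟨w, c⟩ hy hpy ↦ by
      have hE1 : E w = w := congrArg Prod.fst hpy
      exact mem_smul_top_of_relation b hI (G := Gm ∘ₗ E) hmem hy
        fun h ↦ hzero w hE1 (by rwa [LinearMap.comp_apply, hE1] at h)
    obtain ⟨σ, hσ⟩ := Module.projective_lifting_property Φ LinearMap.id hΦ
    -- a relation `x` is fixed by `q`, whose image lies in `N`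
    let q : (Fin m → C ⊗[k] A) × (Fin g → C) →ₗ[C] (Fin m → C ⊗[k] A) × (Fin g → C) :=
      p ∘ₗ (LinearMap.id - σ ∘ₗ Φ)
    set x : (Fin m → C ⊗[k] A) × (Fin g → C) := (-E v, d)
    have hx0 : Φ x = 0 := by
      simp only [Φ, x, LinearMap.coprod_apply, LinearMap.coe_restrictScalars,
        LinearMap.comp_apply, map_neg, hEE]
      rw [← hv, LinearMap.comp_apply, neg_add_cancel]
    have hpx : p x = x := by simp [p, x, hEE]
    have hq : LinearMap.range q ≤ N • ⊤ := by
      rintro _ ⟨y, rfl⟩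
      have hσy : Φ (σ (Φ y)) = Φ y := LinearMap.congr_fun hσ (Φ y)
      refine hK _ ?_ ?_
      · simp only [q, LinearMap.comp_apply, hΦp]
        simp [hσy]
      · simp [q, p, hEE]
    -- so `x = q x` lies in `N ^ 2 = 0`
    have h1 : q x ∈ N • (N • (⊤ : Submodule C ((Fin m → C ⊗[k] A) × (Fin g → C)))) := by
      refine Submodule.smul_mono le_rfl hq ?_
      have := Submodule.mem_map_of_mem (f := q) (hK x hx0 hpx)
      rwa [Submodule.map_smul'', Submodule.map_top] at this
    rw [← Submodule.mul_smul, ← pow_two, hN, Submodule.bot_smul, Submodule.mem_bot] at h1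
    have : q x = x := by simp [q, hx0, hpx]
    rw [this] at h1
    exact congrArg Prod.snd h1
  · obtain ⟨r, rfl⟩ := Ideal.Quotient.mk_surjective q
    obtain ⟨⟨v, c⟩, rfl⟩ := hΦ r
    refine ⟨c, (Ideal.Quotient.mk_eq_mk_iff_sub_mem _ _).mpr ?_⟩
    simp only [Φ, LinearMap.coprod_apply, LinearMap.coe_restrictScalars]
    rw [sub_add_cancel_right]
    exact J.neg_mem ⟨v, rfl⟩
  · refine le_antisymm (Ideal.map_le_iff_le_comap.mpr ?_) fun z hz ↦ ?_
    · rintro _ ⟨v, rfl⟩
      exact hmem v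
    · obtain ⟨v, hv⟩ := hlift z hz
      rw [← hv]
      exact Ideal.mem_map_of_mem _ ⟨v, rfl⟩

end Lift

/-- Formal smoothness of the classifying ring. -/
theorem formallySmooth_basisRing
    (hproj : ∀ (B : Type u) [CommRing B] [Algebra k B] (I : Ideal (B ⊗[k] A)),
      IsBasisIdeal b I → Module.Finite (B ⊗[k] A) I ∧ Module.Projective (B ⊗[k] A) I) :
    Algebra.FormallySmooth k (BasisRing k b) := by
  refine .of_comp_surjective fun C _ _ N hN f ↦ ?_
  have hc := BasisCoord.isBasisIdeal ((univCoord k b).map f)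
  obtain ⟨_, _⟩ := hproj _ _ hc
  obtain ⟨J, hJ, hJI⟩ := exists_isBasisIdeal_lift b hN _ hc
  refine ⟨(BasisCoord.ofIdeal hJ).toHom, BasisCoord.toHom_unique (BasisCoord.ideal_injective ?_)⟩
  rw [← hJI]
  conv_rhs => rw [← BasisCoord.ideal_ofIdeal hJ, BasisCoord.ideal_map,
    ← BasisCoord.map_toHom (BasisCoord.ofIdeal hJ)]
  rfl

end

end Fermat.PIC
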