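import Fermat.Agent.PIC.Chart.Bounded
import Mathlib

/-!
# Finiteness of the two-chart Čech cohomology

First cohomology is finite, and for a surjective differential the global sections are finite
projective (`finite_H0`, `projective_H0`).
-/

set_option autoImplicit false

universe u

open scoped TensorProduct
open Polynomial

namespace Fermat.PIC

noncomputable section

variable {k : Type u} [Field k]

section Gens

variable {A : Type u} [CommRing A] [Algebra k A] (B : Type u) [CommRing B] [Algebra k B]
  {P : Type u} [AddCommGroup P] [Module (B ⊗[k] A) P] [Module B P] [IsScalarTower B (B ⊗[k] A) P]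

/-- Monomials in the coordinate times finitely many elements span a chart module over the base. -/
lemma exists_finset_span_pow {x : A} (hfin : (Polynomial.aeval x : k[X] →ₐ[k] A).toRingHom.Finite)
    [Module.Finite (B ⊗[k] A) P] :
    ∃ s : Finset P,
      Submodule.span B {p : P | ∃ e : ℕ, ∃ l ∈ s, p =
        ((1 : B) ⊗ₜ[k] x : B ⊗[k] A) ^ e • l} = ⊤ := by
  classical
  let := (Polynomial.aeval x : k[X] →ₐ[k] A).toRingHom.toAlgebra
  have : Module.Finite k[X] A := hfin
  obtain ⟨n, a, ha⟩ := Module.Finite.exists_fin (R := k[X]) (M := A)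
  obtain ⟨m, l, hl⟩ := Module.Finite.exists_fin (R := B ⊗[k] A) (M := P)
  -- products of generators of `A` over `k[x]` and of `P`
  let s : Finset P := Finset.univ.image
    fun ij : Fin n × Fin m ↦ ((1 : B) ⊗ₜ[k] a ij.1 : B ⊗[k] A) • l ij.2
  refine ⟨s, eq_top_iff.mpr ?_⟩
  let N := Submodule.span B {p : P | ∃ e : ℕ, ∃ l ∈ s, p = ((1 : B) ⊗ₜ[k] x : B ⊗[k] A) ^ e • l}
  have key : ∀ (r : B ⊗[k] A) (j : Fin m), r • l j ∈ N := by
    intro r j
    induction r using TensorProduct.induction_on with
    | zero => simp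
    | add v w hv hw => rw [add_smul]; exact N.add_mem hv hw
    | tmul b c =>
      have hc : c ∈ Submodule.span k[X] (Set.range a) := ha ▸ trivial
      obtain ⟨p, hp⟩ := Submodule.mem_span_range_iff_exists_fun _ |>.mp hc
      rw [← hp, TensorProduct.tmul_sum, Finset.sum_smul]
      refine N.sum_mem fun i _ ↦ ?_
      have e1 : (p i) • a i = (p i).sum fun e co ↦ co • (x ^ e * a i) := by
        change Polynomial.aeval x (p i) * a i = _
        rw [Polynomial.aeval_eq_sum_range, Finset.sum_mul]
        refine Eq.trans ?_ (Polynomial.sum_over_range (f := fun e co ↦ co • (x ^ e * a i)) (p i)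
          fun _ ↦ zero_smul k _).symm
        refine Finset.sum_congr rfl fun e _ ↦ smul_mul_assoc _ _ _
      rw [e1, Polynomial.sum_def, TensorProduct.tmul_sum, Finset.sum_smul]
      refine N.sum_mem fun e _ ↦ ?_
      have e2 : (b ⊗ₜ[k] ((p i).coeff e • (x ^ e * a i)) : B ⊗[k] A) • l j =
          (b * algebraMap k B ((p i).coeff e)) •
            (((1 : B) ⊗ₜ[k] x : B ⊗[k] A) ^ e • ((1 : B) ⊗ₜ[k] a i : B ⊗[k] A) • l j) := by
        rw [← algebraMap_smul (B ⊗[k] A) (b * algebraMap k B ((p i).coeff e)), ← mul_smul,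
          ← mul_smul, Algebra.TensorProduct.tmul_pow, Algebra.TensorProduct.algebraMap_apply,
          Algebra.TensorProduct.tmul_mul_tmul, Algebra.TensorProduct.tmul_mul_tmul]
        congr 1
        rw [Algebra.algebraMap_self, RingHom.id_apply, one_pow, mul_one, mul_one,
          TensorProduct.tmul_smul, TensorProduct.smul_tmul', Algebra.smul_def, mul_comm, one_mul]
      rw [e2]
      refine N.smul_mem _ (Submodule.subset_span ⟨e, _, ?_, rfl⟩)
      exact Finset.mem_image.mpr ⟨(i, j), Finset.mem_univ _, rfl⟩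
  rintro q -
  have hq : q ∈ Submodule.span (B ⊗[k] A) (Set.range l) := hl ▸ trivial
  obtain ⟨c, rfl⟩ := Submodule.mem_span_range_iff_exists_fun _ |>.mp hq
  exact N.sum_mem fun j _ ↦ key (c j) j

end Gens

namespace Datum

variable {G : CurveCharts k} {B : Type u} [CommRing B] [Algebra k B] (D : Datum G B)

/-- Multiplication by the coordinate on the overlap. -/
def u : Module.End B D.P01 := DistribSMul.toLinearMap B D.P01 (G.xUnit B : G.R01 B)

/-- Multiplication by the inverse coordinate on the overlap. -/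
def v : Module.End B D.P01 := DistribSMul.toLinearMap B D.P01 (↑(G.xUnit B)⁻¹ : G.R01 B)

/-- Powers of `u` multiply by powers of the coordinate. -/
lemma u_pow (n : ℕ) (z : D.P01) : (D.u ^ n) z = (G.xUnit B : G.R01 B) ^ n • z := by
  induction n with
  | zero => simp
  | succ n ih =>
    rw [pow_succ', Module.End.mul_apply, ih, pow_succ', mul_smul]
    rfl

/-- Powers of `v` multiply by powers of the inverse coordinate. -/
lemma v_pow (n : ℕ) (z : D.P01) : (D.v ^ n) z = (↑(G.xUnit B)⁻¹ : G.R01 B) ^ n • z := by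
  induction n with
  | zero => simp
  | succ n ih =>
    rw [pow_succ', Module.End.mul_apply, ih, pow_succ', mul_smul]
    rfl

/-- Restriction from `U0` turns the coordinate into `u`. -/
lemma r0_X0_pow (e : ℕ) (p : D.P0) : D.r0 (G.X0 B ^ e • p) = (D.u ^ e) (D.r0 p) := by
  rw [D.r0_smul, map_pow, D.u_pow]
  rfl

/-- Restriction from `U1` turns the inverse coordinate into `v`. -/
lemma r1_Y1_pow (e : ℕ) (p : D.P1) : D.r1 (G.Y1 B ^ e • p) = (D.v ^ e) (D.r1 p) := by
  rw [D.r1_smul, map_pow, D.v_pow]
  rfl

/-- A power of `u` undoes the same power of `v`. -/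
lemma u_v_pow (e : ℕ) (z : D.P01) : (D.u ^ e) ((D.v ^ e) z) = z := by
  rw [D.u_pow, D.v_pow, ← mul_smul, ← mul_pow, Units.mul_inv, one_pow, one_smul]

/-- A power of `v` undoes the same power of `u`. -/
lemma v_u_pow (e : ℕ) (z : D.P01) : (D.v ^ e) ((D.u ^ e) z) = z := by
  rw [D.u_pow, D.v_pow, ← mul_smul, ← mul_pow, Units.inv_mul, one_pow, one_smul]

/-- A retraction onto `U0` killing sufficiently negative powers of the coordinate. -/
lemma exists_retraction0 : ∃ π : D.P01 →ₗ[B] D.P0, (∀ p, π (D.r0 p) = p) ∧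
    ∀ z, ∃ N : ℕ, ∀ f, N ≤ f → ∀ w, (D.u ^ f) w = z → π w = 0 := by
  obtain ⟨T, hT, hnil⟩ := exists_divX_tensor G.finite0 G.injective0 B
  refine exists_retraction (G.X0 B) T hT hnil D.u
    D.r0 D.r0_inj (fun p ↦ ?_) fun z ↦ ?_
  · exact D.r0_smul _ p
  · obtain ⟨n, p, hp⟩ := D.r0_surj z
    exact ⟨n, p, by rw [hp, D.u_pow]⟩

/-- A retraction onto `U1` killing sufficiently positive powers of the coordinate. -/
lemma exists_retraction1 : ∃ π : D.P01 →ₗ[B] D.P1, (∀ p, π (D.r1 p) = p) ∧
    ∀ z, ∃ N : ℕ, ∀ f, N ≤ f → ∀ w, (D.v ^ f) w = z → π w = 0 := by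
  obtain ⟨T, hT, hnil⟩ := exists_divX_tensor G.finite1 G.injective1 B
  refine exists_retraction (G.Y1 B) T hT hnil D.v
    D.r1 D.r1_inj (fun p ↦ ?_) fun z ↦ ?_
  · exact D.r1_smul _ p
  · obtain ⟨n, p, hp⟩ := D.r1_surj z
    exact ⟨n, p, by rw [hp, D.v_pow]⟩

/-- A finite projective module over a projective algebra is projective over the base. -/
lemma projective_base {R P : Type u} [CommRing R] [Algebra B R] [Module.Projective B R]
    [AddCommGroup P] [Module R P] [Module B P] [IsScalarTower B R P] [Module.Finite R P]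
    [Module.Projective R P] : Module.Projective B P := by
  obtain ⟨n, g, hg⟩ := Module.Finite.exists_fin' R P
  obtain ⟨φ, hφ⟩ := Module.projective_lifting_property g LinearMap.id hg
  classical
  have : Module.Projective B (Fin n → R) :=
    Module.Projective.of_equiv
      (DFinsupp.linearEquivFunOnFintype (R := B) (ι := Fin n) (M := fun _ ↦ R))
  exact Module.Projective.of_split (φ.restrictScalars B) (g.restrictScalars B)
    (LinearMap.ext fun p ↦ LinearMap.congr_fun hφ p)

/-- Sections over the first chart are projective over the base. -/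
instance : Module.Projective B D.P0 := projective_base (R := G.R0 B)
/-- Sections over the second chart are projective over the base. -/
instance : Module.Projective B D.P1 := projective_base (R := G.R1 B)
/-- Sections over the overlap are projective over the base. -/
instance : Module.Projective B D.P01 := projective_base (R := G.R01 B)

/-- Sections of `U0` give coboundaries. -/
lemma range_r0_le : LinearMap.range D.r0 ≤ LinearMap.range D.d := by
  rintro _ ⟨p, rfl⟩
  exact ⟨(p, 0), by simp [D.d_apply]⟩

/-- Sections of `U1` give coboundaries. -/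
lemma range_r1_le : LinearMap.range D.r1 ≤ LinearMap.range D.d := by
  rintro _ ⟨p, rfl⟩
  exact ⟨(0, -p), by simp [D.d_apply]⟩

/-- First cohomology is finite over the base. -/
instance finite_H1 : Module.Finite B D.H1 := by
  classical
  -- generators `l` of the first chart; `v ^ a l` moves each into the second
  obtain ⟨s, hs⟩ := exists_finset_span_pow (k := k) (A := G.A0) B (P := D.P0) G.finite0
  choose a q ha using fun l : D.P0 ↦ D.r1_surj (D.r0 l)
  let t : Finset D.P01 := s.biUnion fun l ↦ (Finset.range (a l)).image fun j ↦ (D.v ^ j) (D.r0 l)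
  let N := LinearMap.range D.d ⊔ Submodule.span B (t : Set D.P01)
  -- modulo the image of `d` only the lower powers of `v` on them are needed
  have hgen : ∀ (e n : ℕ), ∀ l ∈ s, (D.v ^ n) (D.r0 (G.X0 B ^ e • l)) ∈ N := by
    intro e n l hl
    rw [D.r0_X0_pow]
    rcases le_or_gt n e with h | h
    · obtain ⟨j, rfl⟩ := Nat.exists_eq_add_of_le h
      rw [pow_add, Module.End.mul_apply, D.v_u_pow, ← D.r0_X0_pow]
      exact Submodule.mem_sup_left (D.range_r0_le ⟨_, rfl⟩)
    · obtain ⟨j, rfl⟩ := Nat.exists_eq_add_of_le h.le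
      rw [add_comm e j, pow_add, Module.End.mul_apply, D.v_u_pow]
      rcases lt_or_ge j (a l) with h' | h'
      · exact Submodule.mem_sup_right (Submodule.subset_span
          (Finset.mem_biUnion.mpr ⟨l, hl, Finset.mem_image.mpr ⟨j, Finset.mem_range.mpr h', rfl⟩⟩))
      · obtain ⟨i, rfl⟩ := Nat.exists_eq_add_of_le h'
        rw [add_comm, pow_add, Module.End.mul_apply, D.v_pow (a l), ← ha, ← D.r1_Y1_pow]
        exact Submodule.mem_sup_left (D.range_r1_le ⟨_, rfl⟩)
  have hN : N = ⊤ := eq_top_iff.mpr fun z _ ↦ by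
    obtain ⟨n, p, hp⟩ := D.r0_surj z
    have hz : z = (D.v ^ n) (D.r0 p) := by rw [hp, ← D.u_pow, D.v_u_pow]
    rw [hz]
    have : p ∈ Submodule.comap ((D.v ^ n) ∘ₗ D.r0) N := by
      refine (Submodule.span_le.mpr ?_) (hs ▸ Submodule.mem_top : p ∈ Submodule.span B _)
      rintro _ ⟨e, l, hl, rfl⟩
      exact hgen e n l hl
    exact this
  -- so their classes generate the cohomology
  refine ⟨⟨t.image (Submodule.mkQ (LinearMap.range D.d)), ?_⟩⟩
  rw [Finset.coe_image, Submodule.span_image, eq_top_iff]
  rintro z -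
  obtain ⟨z, rfl⟩ := Submodule.mkQ_surjective _ z
  obtain ⟨w, hw, t', ht', rfl⟩ := Submodule.mem_sup.mp (hN ▸ Submodule.mem_top : z ∈ N)
  refine ⟨t', ht', ?_⟩
  simp [(Submodule.Quotient.mk_eq_zero _).mpr hw]

/-- The preimage of a finitely generated module of the overlap is reached by a finitely generated
one. -/
lemma exists_fg_le_comap (S : Submodule B D.P01) (hS : S.FG) :
    ∃ W : Submodule B (D.P0 × D.P1), W.FG ∧ S.comap D.d ≤ W := by
  classical
  -- retractions `π`, `ψ` kill high powers of the coordinates on each generator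
  obtain ⟨π, hπ, hπN⟩ := D.exists_retraction0
  obtain ⟨ψ, hψ, hψN⟩ := D.exists_retraction1
  obtain ⟨s, hs⟩ := exists_finset_span_pow (k := k) (A := G.A0) B (P := D.P0) G.finite0
  obtain ⟨t, ht⟩ := exists_finset_span_pow (k := k) (A := G.A1) B (P := D.P1) G.finite1
  choose N hN using fun l : D.P1 ↦ hπN (D.r1 l)
  choose M hM using fun l : D.P0 ↦ hψN (D.r0 l)
  -- `W0`, `W1` are spanned by the finitely many surviving images
  let W0 := Submodule.span B ((t.biUnion fun l ↦
    (Finset.range (N l)).image fun f ↦ π ((D.v ^ f) (D.r1 l)) : Finset D.P0) : Set D.P0)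
  let W1 := Submodule.span B ((s.biUnion fun l ↦
    (Finset.range (M l)).image fun f ↦ ψ ((D.u ^ f) (D.r0 l)) : Finset D.P1) : Set D.P1)
  refine ⟨(W0 ⊔ S.map π).prod (W1 ⊔ S.map ψ),
    ((Submodule.fg_span (Finset.finite_toSet _)).sup (hS.map _)).prod
      ((Submodule.fg_span (Finset.finite_toSet _)).sup (hS.map _)), fun z hz ↦ ?_⟩
  obtain ⟨w, hw, hz⟩ : ∃ w ∈ S, D.d z = w := ⟨_, hz, rfl⟩
  rw [D.d_apply, sub_eq_iff_eq_add] at hz
  refine ⟨?_, ?_⟩
  -- applying `π` to `d z ∈ S` puts `z.1` in `W0 ⊔ π S`
  · have : z.2 ∈ Submodule.comap (π ∘ₗ D.r1) W0 := by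
      refine (Submodule.span_le.mpr ?_) (ht ▸ Submodule.mem_top : z.2 ∈ Submodule.span B _)
      rintro _ ⟨f, l, hl, rfl⟩
      change π (D.r1 (G.Y1 B ^ f • l)) ∈ W0
      rw [D.r1_Y1_pow]
      rcases lt_or_ge f (N l) with h | h
      · exact Submodule.subset_span (Finset.mem_biUnion.mpr
          ⟨l, hl, Finset.mem_image.mpr ⟨f, Finset.mem_range.mpr h, rfl⟩⟩)
      · rw [hN l f h _ (D.u_v_pow f _)]
        exact W0.zero_mem
    change z.1 ∈ W0 ⊔ S.map π
    rw [← hπ z.1, hz, map_add, add_comm]
    exact Submodule.add_mem _ (Submodule.mem_sup_left this)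
      (Submodule.mem_sup_right ⟨w, hw, rfl⟩)
  -- symmetrically for `z.2`
  · have : z.1 ∈ Submodule.comap (ψ ∘ₗ D.r0) W1 := by
      refine (Submodule.span_le.mpr ?_) (hs ▸ Submodule.mem_top : z.1 ∈ Submodule.span B _)
      rintro _ ⟨f, l, hl, rfl⟩
      change ψ (D.r0 (G.X0 B ^ f • l)) ∈ W1
      rw [D.r0_X0_pow]
      rcases lt_or_ge f (M l) with h | h
      · exact Submodule.subset_span (Finset.mem_biUnion.mpr
          ⟨l, hl, Finset.mem_image.mpr ⟨f, Finset.mem_range.mpr h, rfl⟩⟩)
      · rw [hM l f h _ (D.v_u_pow f _)]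
        exact W1.zero_mem
    change z.2 ∈ W1 ⊔ S.map ψ
    rw [← hψ z.2, eq_sub_of_add_eq' hz.symm, map_sub, sub_eq_add_neg]
    exact Submodule.add_mem _ (Submodule.mem_sup_left this)
      (Submodule.mem_sup_right (Submodule.neg_mem _ ⟨w, hw, rfl⟩))

/-- Global sections lie in a finitely generated module of cochains. -/
lemma exists_fg_le_H0 : ∃ W : Submodule B (D.P0 × D.P1), W.FG ∧ D.H0 ≤ W := by
  obtain ⟨W, hW, hle⟩ := D.exists_fg_le_comap ⊥ Submodule.fg_bot
  exact ⟨W, hW, hle⟩

/-- Over a field the global sections are finite-dimensional. -/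
instance finite_H0_field {K : Type u} [Field K] [Algebra k K] (E : Datum G K) :
    Module.Finite K E.H0 := by
  obtain ⟨W, hW, hle⟩ := E.exists_fg_le_H0
  have : Module.Finite K W := Module.Finite.iff_fg.mpr hW
  exact Module.Finite.of_injective (Submodule.inclusion hle) (Submodule.inclusion_injective hle)

/-- A surjective differential has a linear section. -/
lemma exists_section (h : Function.Surjective D.d) :
    ∃ s : D.P01 →ₗ[B] D.P0 × D.P1, D.d ∘ₗ s = LinearMap.id :=
  Module.projective_lifting_property D.d LinearMap.id h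

/-- With surjective differential the global sections are a direct summand. -/
lemma exists_projection (h : Function.Surjective D.d) :
    ∃ e : D.P0 × D.P1 →ₗ[B] D.H0, ∀ z : D.H0, e z.1 = z := by
  obtain ⟨s, hs⟩ := D.exists_section h
  refine ⟨LinearMap.codRestrict _ (LinearMap.id - s ∘ₗ D.d) fun z ↦ ?_, fun z ↦ ?_⟩
  · rw [LinearMap.mem_ker]
    have := LinearMap.congr_fun hs (D.d z)
    simp only [LinearMap.coe_comp, Function.comp_apply, LinearMap.id_apply] at this
    simp [this]
  · ext1
    simp [LinearMap.mem_ker.mp z.2]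

/-- With surjective differential the global sections are finite. -/
lemma finite_H0 (h : Function.Surjective D.d) : Module.Finite B D.H0 := by
  obtain ⟨W, hW, hle⟩ := D.exists_fg_le_H0
  obtain ⟨e, he⟩ := D.exists_projection h
  have : Module.Finite B W := Module.Finite.iff_fg.mpr hW
  exact Module.Finite.of_surjective (e ∘ₗ W.subtype) fun z ↦ ⟨⟨z.1, hle z.2⟩, he z⟩

/-- With surjective differential the global sections are projective. -/
lemma projective_H0 (h : Function.Surjective D.d) : Module.Projective B D.H0 := by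
  obtain ⟨e, he⟩ := D.exists_projection h
  exact Module.Projective.of_split D.H0.subtype e (LinearMap.ext he)

end Datum

end

end Fermat.PIC
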