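import Fermat.Agent.PIC.Chart.BaseChangeModule
import Fermat.Agent.PIC.Chart.Cech
import Mathlib

/-!
# Base change of the two-chart Čech cohomology and of augmented differentials

`BC.H1Equiv` and `BC.exists_H0Equiv` compare cohomology, and `BC.ker_dAug_baseChange` the kernels
of augmented differentials.
-/

set_option autoImplicit false

universe u

open scoped TensorProduct

namespace Fermat.PIC

noncomputable section

namespace Datum

variable {k : Type u} [Field k] {G : CurveCharts k} {B B' : Type u} [CommRing B] [CommRing B']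
  [Algebra k B] [Algebra k B'] [Algebra B B'] [IsScalarTower k B B']
  {D : Datum G B} {D' : Datum G B'}

section Augmented

variable (D) {r : ℕ} (z : Fin r → D.P01)

/-- The differential augmented by finitely many elements. -/
def dAug : (D.P0 × D.P1) × (Fin r → B) →ₗ[B] D.P01 :=
  D.d.coprod (Fintype.linearCombination B z)

/-- The augmented differential, written out. -/
lemma dAug_apply (w : (D.P0 × D.P1) × (Fin r → B)) :
    D.dAug z w = D.d w.1 + ∑ i, w.2 i • z i := by
  simp [dAug, Fintype.linearCombination_apply]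

/-- Finitely many elements make the differential surjective. -/
lemma exists_aug : ∃ (r : ℕ) (z : Fin r → D.P01), Function.Surjective (D.dAug z) := by
  obtain ⟨r, g, hg⟩ := Module.Finite.exists_fin (R := B) (M := D.H1)
  choose z hz using fun i ↦ Submodule.mkQ_surjective (LinearMap.range D.d) (g i)
  refine ⟨r, z, fun w ↦ ?_⟩
  obtain ⟨c, hc⟩ := (Submodule.mem_span_range_iff_exists_fun B).mp
    (hg ▸ Submodule.mem_top : Submodule.mkQ (LinearMap.range D.d) w ∈
      Submodule.span B (Set.range g))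
  simp only [← hz, ← map_smul, ← map_sum] at hc
  obtain ⟨p, hp⟩ := (Submodule.Quotient.eq _).mp hc.symm
  exact ⟨(p, c), by rw [dAug_apply, hp]; abel⟩

/-- The kernel of a surjective augmented differential is a direct summand. -/
lemma exists_projection_aug (h : Function.Surjective (D.dAug z)) :
    ∃ e : (D.P0 × D.P1) × (Fin r → B) →ₗ[B] LinearMap.ker (D.dAug z),
      ∀ w : LinearMap.ker (D.dAug z), e w.1 = w := by
  obtain ⟨s, hs⟩ := Module.projective_lifting_property (D.dAug z) LinearMap.id h
  refine ⟨LinearMap.codRestrict _ (LinearMap.id - s ∘ₗ D.dAug z) fun w ↦ ?_, fun w ↦ ?_⟩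
  · rw [LinearMap.mem_ker]
    have := LinearMap.congr_fun hs (D.dAug z w)
    simp only [LinearMap.coe_comp, Function.comp_apply, LinearMap.id_apply] at this
    simp [this]
  · ext1
    simp [LinearMap.mem_ker.mp w.2]

/-- The kernel of a surjective augmented differential is finite. -/
lemma finite_ker_dAug (h : Function.Surjective (D.dAug z)) :
    Module.Finite B (LinearMap.ker (D.dAug z)) := by
  obtain ⟨W, hW, hle⟩ :=
    D.exists_fg_le_comap (Submodule.span B (Set.range z)) (Submodule.fg_span (Set.finite_range z))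
  obtain ⟨e, he⟩ := D.exists_projection_aug z h
  have : Module.Finite B (W.prod (⊤ : Submodule B (Fin r → B))) :=
    Module.Finite.iff_fg.mpr (hW.prod (Module.finite_def.mp inferInstance))
  refine Module.Finite.of_surjective
    (e ∘ₗ (W.prod (⊤ : Submodule B (Fin r → B))).subtype) fun w ↦
      ⟨⟨w.1, hle ?_, Submodule.mem_top⟩, he w⟩
  have hw := LinearMap.mem_ker.mp w.2
  rw [dAug_apply, add_eq_zero_iff_eq_neg] at hw
  change D.d w.1.1 ∈ Submodule.span B (Set.range z)
  rw [hw]
  exact Submodule.neg_mem _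
    (Submodule.sum_mem _ fun i _ ↦ Submodule.smul_mem _ _ (Submodule.subset_span ⟨i, rfl⟩))

/-- The kernel of a surjective augmented differential is projective. -/
lemma projective_ker_dAug (h : Function.Surjective (D.dAug z)) :
    Module.Projective B (LinearMap.ker (D.dAug z)) := by
  obtain ⟨e, he⟩ := D.exists_projection_aug z h
  exact Module.Projective.of_split (LinearMap.ker (D.dAug z)).subtype e (LinearMap.ext he)

end Augmented

variable (bc : BC (IsScalarTower.toAlgHom k B B') D D')

/-- The comparison on `U0`. -/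
def BC.Φ0 : B' ⊗[B] D.P0 ≃ₗ[B'] D'.P0 :=
  { AddEquiv.ofBijective (bcMap bc.f0 bc.smul0) (bcMap_bijective bc.f0 bc.smul0 bc.span0) with
    map_smul' := fun b z ↦ bcMap_smul bc.f0 bc.smul0 b z }

/-- The comparison on `U1`. -/
def BC.Φ1 : B' ⊗[B] D.P1 ≃ₗ[B'] D'.P1 :=
  { AddEquiv.ofBijective (bcMap bc.f1 bc.smul1) (bcMap_bijective bc.f1 bc.smul1 bc.span1) with
    map_smul' := fun b z ↦ bcMap_smul bc.f1 bc.smul1 b z }

/-- The comparison on the overlap. -/
def BC.Φ01 : B' ⊗[B] D.P01 ≃ₗ[B'] D'.P01 :=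
  { AddEquiv.ofBijective (bcMap bc.f01 bc.smul01) (bcMap_bijective bc.f01 bc.smul01 bc.span01) with
    map_smul' := fun b z ↦ bcMap_smul bc.f01 bc.smul01 b z }

/-- The comparison on `U0` on pure tensors. -/
@[simp]
lemma BC.Φ0_tmul (b : B') (p : D.P0) : bc.Φ0 (b ⊗ₜ p) = b • bc.f0 p := rfl

/-- The comparison on `U1` on pure tensors. -/
@[simp]
lemma BC.Φ1_tmul (b : B') (p : D.P1) : bc.Φ1 (b ⊗ₜ p) = b • bc.f1 p := rfl

/-- The comparison on the overlap on pure tensors. -/
@[simp]
lemma BC.Φ01_tmul (b : B') (p : D.P01) : bc.Φ01 (b ⊗ₜ p) = b • bc.f01 p := rfl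

/-- The comparison on cochains. -/
def BC.ΦC : B' ⊗[B] (D.P0 × D.P1) ≃ₗ[B'] D'.P0 × D'.P1 :=
  (TensorProduct.prodRight B B' B' D.P0 D.P1).trans (bc.Φ0.prodCongr bc.Φ1)

/-- The comparison on cochains on pure tensors. -/
lemma BC.ΦC_tmul (b : B') (p : D.P0 × D.P1) :
    bc.ΦC (b ⊗ₜ p) = (b • bc.f0 p.1, b • bc.f1 p.2) := by
  simp [BC.ΦC]

/-- The comparisons commute with the differentials. -/
lemma BC.d_ΦC (w : B' ⊗[B] (D.P0 × D.P1)) :
    D'.d (bc.ΦC w) = bc.Φ01 (D.d.baseChange B' w) := by
  induction w using TensorProduct.induction_on with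
  | zero => simp
  | add v w hv hw => simp only [map_add, hv, hw]
  | tmul b p =>
    rw [bc.ΦC_tmul, LinearMap.baseChange_tmul, bc.Φ01_tmul, D'.d_apply, D.d_apply, map_sub,
      smul_sub, map_smul, map_smul, bc.comm0, bc.comm1]

include bc

/-- A surjective differential stays surjective after base change. -/
lemma BC.d_surjective (h : Function.Surjective D.d) : Function.Surjective D'.d := by
  intro w
  obtain ⟨v, hv⟩ := LinearMap.lTensor_surjective B' h (bc.Φ01.symm w)
  refine ⟨bc.ΦC v, ?_⟩
  rw [bc.d_ΦC, show D.d.baseChange B' v = D.d.lTensor B' v from rfl, hv,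
    LinearEquiv.apply_symm_apply]

/-- First cohomology commutes with base change. -/
def BC.H1Equiv : B' ⊗[B] D.H1 ≃ₗ[B'] D'.H1 :=
  let g : B' ⊗[B] D.P01 →ₗ[B'] D'.H1 := (LinearMap.range D'.d).mkQ ∘ₗ bc.Φ01.toLinearMap
  have hker : LinearMap.ker ((LinearMap.range D.d).mkQ.baseChange B') = LinearMap.ker g := by
    apply le_antisymm
    · intro w hw
      obtain ⟨v, hv⟩ := ((lTensor_exact B' (LinearMap.exact_map_mkQ_range D.d)
        (Submodule.mkQ_surjective _)) w).mp hw
      simp only [g, LinearMap.mem_ker, LinearMap.coe_comp, Function.comp_apply,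
        LinearEquiv.coe_toLinearMap, Submodule.mkQ_apply, Submodule.Quotient.mk_eq_zero]
      exact ⟨bc.ΦC v, by rw [bc.d_ΦC, ← hv]; rfl⟩
    · intro w hw
      simp only [g, LinearMap.mem_ker, LinearMap.coe_comp, Function.comp_apply,
        LinearEquiv.coe_toLinearMap, Submodule.mkQ_apply, Submodule.Quotient.mk_eq_zero] at hw
      obtain ⟨v, hv⟩ := hw
      refine ((lTensor_exact B' (LinearMap.exact_map_mkQ_range D.d)
        (Submodule.mkQ_surjective _)) w).mpr ⟨bc.ΦC.symm v, ?_⟩
      apply bc.Φ01.injective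
      rw [← hv]
      exact ((bc.d_ΦC (bc.ΦC.symm v)).symm).trans (by rw [LinearEquiv.apply_symm_apply])
  (LinearMap.quotKerEquivOfSurjective ((LinearMap.range D.d).mkQ.baseChange B')
      (LinearMap.lTensor_surjective B' (Submodule.mkQ_surjective _))).symm.trans
    ((Submodule.quotEquivOfEq _ _ hker).trans
      (LinearMap.quotKerEquivOfSurjective g ((Submodule.mkQ_surjective _).comp bc.Φ01.surjective)))

/-- Global sections commute with base change when `d` is surjective. -/
theorem BC.exists_H0Equiv (h : Function.Surjective D.d) :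
    ∃ e : B' ⊗[B] D.H0 ≃ₗ[B'] D'.H0,
      ∀ b z, (e (b ⊗ₜ z) : D'.P0 × D'.P1) = (b • bc.f0 z.1.1, b • bc.f1 z.1.2) := by
  obtain ⟨e, he⟩ := D.exists_projection h
  let ι : B' ⊗[B] D.H0 →ₗ[B'] D'.P0 × D'.P1 :=
    bc.ΦC.toLinearMap ∘ₗ (D.H0.subtype.baseChange B')
  have hi : Function.Injective ι := by
    refine bc.ΦC.injective.comp (Function.LeftInverse.injective (g := e.baseChange B') fun w ↦ ?_)
    rw [← LinearMap.comp_apply, ← LinearMap.baseChange_comp,
      show e ∘ₗ D.H0.subtype = LinearMap.id from LinearMap.ext he, LinearMap.baseChange_id]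
    rfl
  have hr : LinearMap.range ι = D'.H0 := by
    apply le_antisymm
    · rintro _ ⟨w, rfl⟩
      rw [LinearMap.mem_ker]
      change D'.d (bc.ΦC _) = 0
      rw [bc.d_ΦC, ← LinearMap.comp_apply (D.d.baseChange B'), ← LinearMap.baseChange_comp,
        show D.d ∘ₗ D.H0.subtype = 0 from LinearMap.ext fun z ↦ z.2]
      simp
    · intro v hv
      rw [LinearMap.mem_ker, ← bc.ΦC.apply_symm_apply v, bc.d_ΦC] at hv
      obtain ⟨w, hw⟩ := ((lTensor_exact B' (LinearMap.exact_subtype_ker_map D.d) h)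
        (bc.ΦC.symm v)).mp (bc.Φ01.injective (hv.trans (map_zero _).symm))
      exact ⟨w, by
        change bc.ΦC (D.H0.subtype.lTensor B' w) = v
        rw [hw, LinearEquiv.apply_symm_apply]⟩
  refine ⟨(LinearEquiv.ofInjective ι hi).trans (LinearEquiv.ofEq _ _ hr), fun b z ↦ ?_⟩
  change bc.ΦC (b ⊗ₜ z.1) = _
  rw [bc.ΦC_tmul]

/-- The augmented kernel commutes with base change. -/
theorem BC.ker_dAug_baseChange {r : ℕ} (z : Fin r → D.P01) (h : Function.Surjective (D.dAug z)) :
    Function.Surjective (D'.dAug (fun i ↦ bc.f01 (z i))) ∧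
      Nonempty (B' ⊗[B] LinearMap.ker (D.dAug z) ≃ₗ[B']
        LinearMap.ker (D'.dAug (fun i ↦ bc.f01 (z i)))) := by
  let Ψ : B' ⊗[B] ((D.P0 × D.P1) × (Fin r → B)) ≃ₗ[B'] (D'.P0 × D'.P1) × (Fin r → B') :=
    (TensorProduct.prodRight B B' B' (D.P0 × D.P1) (Fin r → B)).trans
      (bc.ΦC.prodCongr (TensorProduct.piScalarRight B B' B' (Fin r)))
  have hΨ : ∀ w, D'.dAug (fun i ↦ bc.f01 (z i)) (Ψ w) = bc.Φ01 ((D.dAug z).baseChange B' w) := by
    intro w
    induction w using TensorProduct.induction_on with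
    | zero => simp
    | add v w hv hw => simp only [map_add, hv, hw]
    | tmul b p =>
      rw [LinearMap.baseChange_tmul, dAug_apply, dAug_apply, TensorProduct.tmul_add, map_add,
        TensorProduct.tmul_sum, map_sum]
      congr 1
      · exact (bc.d_ΦC (b ⊗ₜ p.1)).trans (by rw [LinearMap.baseChange_tmul])
      · refine Finset.sum_congr rfl fun i _ ↦ ?_
        rw [TensorProduct.tmul_smul, ← algebraMap_smul B' (p.2 i) (b ⊗ₜ[B] z i), map_smul,
          bc.Φ01_tmul, ← mul_smul]
        congr 1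
        simp [Ψ, Algebra.smul_def, mul_comm]
  -- the kernel being a direct summand, it base changes injectively
  obtain ⟨e, he⟩ := D.exists_projection_aug z h
  let ι : B' ⊗[B] LinearMap.ker (D.dAug z) →ₗ[B'] (D'.P0 × D'.P1) × (Fin r → B') :=
    Ψ.toLinearMap ∘ₗ ((LinearMap.ker (D.dAug z)).subtype.baseChange B')
  have hi : Function.Injective ι := by
    refine Ψ.injective.comp (Function.LeftInverse.injective (g := e.baseChange B') fun w ↦ ?_)
    rw [← LinearMap.comp_apply, ← LinearMap.baseChange_comp,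
      show e ∘ₗ (LinearMap.ker (D.dAug z)).subtype = LinearMap.id from LinearMap.ext he,
      LinearMap.baseChange_id]
    rfl
  refine ⟨fun w ↦ ?_, ⟨(LinearEquiv.ofInjective ι hi).trans (LinearEquiv.ofEq _ _ ?_)⟩⟩
  · obtain ⟨v, hv⟩ := LinearMap.lTensor_surjective B' h (bc.Φ01.symm w)
    exact ⟨Ψ v, by rw [hΨ, show (D.dAug z).baseChange B' v = (D.dAug z).lTensor B' v from rfl, hv,
      LinearEquiv.apply_symm_apply]⟩
  -- its image is the kernel, by right exactness
  apply le_antisymm
  · rintro _ ⟨w, rfl⟩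
    rw [LinearMap.mem_ker]
    change D'.dAug _ (Ψ _) = 0
    rw [hΨ, ← LinearMap.comp_apply ((D.dAug z).baseChange B'), ← LinearMap.baseChange_comp,
      show D.dAug z ∘ₗ (LinearMap.ker (D.dAug z)).subtype = 0 from LinearMap.ext fun z ↦ z.2]
    simp
  · intro v hv
    rw [LinearMap.mem_ker, ← Ψ.apply_symm_apply v, hΨ] at hv
    obtain ⟨w, hw⟩ := ((lTensor_exact B' (LinearMap.exact_subtype_ker_map (D.dAug z)) h)
      (Ψ.symm v)).mp (bc.Φ01.injective (hv.trans (map_zero _).symm))
    exact ⟨w, by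
      change Ψ ((LinearMap.ker (D.dAug z)).subtype.lTensor B' w) = v
      rw [hw, LinearEquiv.apply_symm_apply]⟩

section FieldFibre

omit bc

variable {K : Type u} [Field K] [Algebra k K]

/-- Over a field the kernel of a surjective augmented differential has as dimension the Euler
characteristic plus the number of added sections. -/
lemma finrank_ker_dAug (E : Datum G K) {r : ℕ} (z : Fin r → E.P01)
    (h : Function.Surjective (E.dAug z)) :
    (Module.finrank K (LinearMap.ker (E.dAug z)) : ℤ) = E.χ + r := by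
  have := E.finite_ker_dAug z h
  -- exact: `0 → H0 → ker dAug → K ^ r → H1 → 0`
  let π : LinearMap.ker (E.dAug z) →ₗ[K] (Fin r → K) :=
    LinearMap.snd K _ _ ∘ₗ (LinearMap.ker (E.dAug z)).subtype
  let ρ : (Fin r → K) →ₗ[K] E.H1 := (LinearMap.range E.d).mkQ ∘ₗ Fintype.linearCombination K z
  have hρ : Function.Surjective ρ := fun w ↦ by
    obtain ⟨w, rfl⟩ := Submodule.mkQ_surjective _ w
    obtain ⟨v, rfl⟩ := h w
    refine ⟨v.2, (Submodule.Quotient.eq _).mpr ⟨-v.1, ?_⟩⟩
    rw [map_neg, dAug_apply, Fintype.linearCombination_apply]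
    abel
  have hrange : LinearMap.range π = LinearMap.ker ρ := by
    ext c
    constructor
    · rintro ⟨⟨v, hv⟩, rfl⟩
      rw [LinearMap.mem_ker, dAug_apply, add_eq_zero_iff_neg_eq] at hv
      rw [LinearMap.mem_ker]
      simp only [π, ρ, LinearMap.coe_comp, Function.comp_apply, Submodule.mkQ_apply,
        Fintype.linearCombination_apply, Submodule.Quotient.mk_eq_zero, Submodule.subtype_apply,
        LinearMap.snd_apply]
      exact ⟨-v.1, by rw [map_neg, hv]⟩
    · intro hc
      simp only [ρ, LinearMap.mem_ker, LinearMap.coe_comp, Function.comp_apply, Submodule.mkQ_apply,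
        Fintype.linearCombination_apply, Submodule.Quotient.mk_eq_zero] at hc
      obtain ⟨p, hp⟩ := hc
      exact ⟨⟨(-p, c), by rw [LinearMap.mem_ker, dAug_apply, map_neg, hp]; abel⟩, rfl⟩
  let ek : LinearMap.ker π ≃ₗ[K] E.H0 :=
    { toFun := fun v ↦ ⟨v.1.1.1, by
        have h1 := v.1.2
        have h2 : v.1.1.2 = 0 := v.2
        rw [LinearMap.mem_ker, dAug_apply, h2] at h1
        simpa using h1⟩
      map_add' := fun _ _ ↦ rfl
      map_smul' := fun _ _ ↦ rfl
      invFun := fun w ↦ ⟨⟨(w.1, 0), by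
        rw [LinearMap.mem_ker, dAug_apply]
        simp⟩, rfl⟩
      left_inv := fun v ↦ by
        apply Subtype.ext
        apply Subtype.ext
        exact Prod.ext rfl (v.2 : v.1.1.2 = 0).symm
      right_inv := fun _ ↦ rfl }
  have q1 := LinearMap.finrank_range_add_finrank_ker π
  have q2 := LinearMap.finrank_range_add_finrank_ker ρ
  rw [LinearMap.range_eq_top.mpr hρ, finrank_top, Module.finrank_fin_fun] at q2
  rw [hrange, LinearEquiv.finrank_eq ek] at q1
  change _ = (Module.finrank K E.H0 : ℤ) - Module.finrank K E.H1 + r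
  omega

end FieldFibre

end Datum

end

end Fermat.PIC
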