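import Mathlib

/-!
# Two-chart description of a curve over a field, and the rings of its base changes

`A0`, `A1` are the coordinate rings of the affine opens `{x regular}` and `{1/x regular}`, finite
over `k[x]`, `k[y]`, where `x * y = 1` on the overlap `A01`; the base point `ε` is a pole of `x`.
-/

set_option autoImplicit false

universe u

open Polynomial
open scoped TensorProduct

namespace Fermat.PIC

/-- Chart data of a proper smooth connected curve with a rational point. -/
structure CurveCharts (k : Type u) [Field k] where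
  /-- Functions regular where `x` is. -/
  A0 : Type u
  /-- Functions regular where `y` is. -/
  A1 : Type u
  /-- Functions on the overlap. -/
  A01 : Type u
  [commRing0 : CommRing A0]
  [commRing1 : CommRing A1]
  [commRing01 : CommRing A01]
  [algebra0 : Algebra k A0]
  [algebra1 : Algebra k A1]
  [algebra01 : Algebra k A01]
  [domain0 : IsDomain A0]
  [domain1 : IsDomain A1]
  [domain01 : IsDomain A01]
  /-- Restriction of functions on the first chart to the overlap. -/
  res0 : A0 →ₐ[k] A01
  /-- Restriction of functions on the second chart to the overlap. -/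
  res1 : A1 →ₐ[k] A01
  /-- The coordinate on the first chart. -/
  x : A0
  /-- The coordinate on the second chart, inverse to `x` on the overlap. -/
  y : A1
  /-- `x y = 1` on the overlap. -/
  res0_mul_res1 : res0 x * res1 y = 1
  /-- The overlap is where `x` is invertible. -/
  loc0 : letI := res0.toRingHom.toAlgebra; IsLocalization.Away x A01
  /-- The overlap is where `y` is invertible. -/
  loc1 : letI := res1.toRingHom.toAlgebra; IsLocalization.Away y A01
  /-- `A0` is finite over `k[x]`. -/
  finite0 : (Polynomial.aeval x : k[X] →ₐ[k] A0).toRingHom.Finite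
  /-- `A1` is finite over `k[y]`. -/
  finite1 : (Polynomial.aeval y : k[X] →ₐ[k] A1).toRingHom.Finite
  /-- `x` is transcendental over `k`. -/
  injective0 : Function.Injective (Polynomial.aeval x : k[X] →ₐ[k] A0)
  /-- `y` is transcendental over `k`. -/
  injective1 : Function.Injective (Polynomial.aeval y : k[X] →ₐ[k] A1)
  /-- Smoothness of dimension one: the diagonal is an invertible ideal. -/
  diag0 : Module.Invertible (A0 ⊗[k] A0) (KaehlerDifferential.ideal k A0)
  /-- The diagonal ideal of the second chart is invertible. -/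
  diag1 : Module.Invertible (A1 ⊗[k] A1) (KaehlerDifferential.ideal k A1)
  /-- Only constants are regular everywhere. -/
  regular : ∀ (a : A0) (b : A1), res0 a = res1 b → ∃ c : k, a = algebraMap k A0 c
  /-- The base point, a rational point of the second chart. -/
  ε : A1 →ₐ[k] k
  /-- `y` vanishes at the base point. -/
  ε_y : ε y = 0

namespace CurveCharts

attribute [instance] commRing0 commRing1 commRing01 algebra0 algebra1 algebra01
  domain0 domain1 domain01

noncomputable section

variable {k : Type u} [Field k] (G : CurveCharts k)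
variable (B : Type u) [CommRing B] [Algebra k B]

/-- Functions on `U0` over `B`. -/
abbrev R0 : Type u := B ⊗[k] G.A0

/-- Functions on `U1` over `B`. -/
abbrev R1 : Type u := B ⊗[k] G.A1

/-- Functions on the overlap over `B`. -/
abbrev R01 : Type u := B ⊗[k] G.A01

/-- Restriction to the overlap. -/
def ρ0 : G.R0 B →ₐ[B] G.R01 B := Algebra.TensorProduct.map (AlgHom.id B B) G.res0

/-- Restriction to the overlap. -/
def ρ1 : G.R1 B →ₐ[B] G.R01 B := Algebra.TensorProduct.map (AlgHom.id B B) G.res1

/-- The coordinate over `B`. -/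
def X0 : G.R0 B := 1 ⊗ₜ G.x

/-- The inverse coordinate over `B`. -/
def Y1 : G.R1 B := 1 ⊗ₜ G.y

/-- On the overlap the coordinate and the inverse coordinate multiply to one. -/
lemma ρ0_X0_mul_ρ1_Y1 : G.ρ0 B (G.X0 B) * G.ρ1 B (G.Y1 B) = 1 := by
  simp [ρ0, ρ1, X0, Y1, G.res0_mul_res1, Algebra.TensorProduct.one_def]

/-- The coordinate as a unit on the overlap. -/
def xUnit : (G.R01 B)ˣ :=
  ⟨G.ρ0 B (G.X0 B), G.ρ1 B (G.Y1 B), G.ρ0_X0_mul_ρ1_Y1 B,
    by rw [mul_comm]; exact G.ρ0_X0_mul_ρ1_Y1 B⟩

variable {B} {B' : Type u} [CommRing B'] [Algebra k B']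

/-- Base change of functions on `U0`. -/
def bc0 (φ : B →ₐ[k] B') : G.R0 B →ₐ[k] G.R0 B' := Algebra.TensorProduct.map φ (AlgHom.id k G.A0)

/-- Base change of functions on `U1`. -/
def bc1 (φ : B →ₐ[k] B') : G.R1 B →ₐ[k] G.R1 B' := Algebra.TensorProduct.map φ (AlgHom.id k G.A1)

/-- Base change of functions on the overlap. -/
def bc01 (φ : B →ₐ[k] B') : G.R01 B →ₐ[k] G.R01 B' :=
  Algebra.TensorProduct.map φ (AlgHom.id k G.A01)

/-- Evaluation at a `B`-point of `U0`. -/
def ev0 (σ : G.A0 →ₐ[k] B) : G.R0 B →ₐ[B] B :=
  Algebra.TensorProduct.lift (AlgHom.id B B) σ fun _ _ ↦ Commute.all _ _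

/-- Evaluation at a `B`-point of `U1`. -/
def ev1 (σ : G.A1 →ₐ[k] B) : G.R1 B →ₐ[B] B :=
  Algebra.TensorProduct.lift (AlgHom.id B B) σ fun _ _ ↦ Commute.all _ _

variable (B)

/-- The base point over `B`. -/
def εB : G.R1 B →ₐ[B] B := G.ev1 ((Algebra.ofId k B).comp G.ε)

/-- The inverse coordinate vanishes at the base point. -/
lemma εB_Y1 : G.εB B (G.Y1 B) = 0 := by
  simp [εB, ev1, Y1, G.ε_y]

end

end CurveCharts

end Fermat.PIC
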