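import Fermat.Agent.PIC.Chart.Charts
import Mathlib

/-!
# Line bundles on a base-changed curve, as modules on the two charts and their overlap

`Datum` is a line bundle over an affine base, with `H0`, `H1` and base changes `BC`; `Bridge`
translates to invertible sheaves (`DatumOf`, `SheafOf`).
-/

set_option autoImplicit false

universe u

open scoped TensorProduct

namespace Fermat.PIC

noncomputable section

variable {k : Type u} [Field k] (G : CurveCharts k)

/-- A line bundle on the curve over `B`, in the two-chart description. -/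
structure Datum (B : Type u) [CommRing B] [Algebra k B] where
  /-- Sections over `U0`. -/
  P0 : Type u
  /-- Sections over `U1`. -/
  P1 : Type u
  /-- Sections over the overlap. -/
  P01 : Type u
  [acg0 : AddCommGroup P0]
  [acg1 : AddCommGroup P1]
  [acg01 : AddCommGroup P01]
  [mod0 : Module (G.R0 B) P0]
  [mod1 : Module (G.R1 B) P1]
  [mod01 : Module (G.R01 B) P01]
  [modB0 : Module B P0]
  [modB1 : Module B P1]
  [modB01 : Module B P01]
  [tower0 : IsScalarTower B (G.R0 B) P0]
  [tower1 : IsScalarTower B (G.R1 B) P1]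
  [tower01 : IsScalarTower B (G.R01 B) P01]
  [inv0 : Module.Invertible (G.R0 B) P0]
  [inv1 : Module.Invertible (G.R1 B) P1]
  [inv01 : Module.Invertible (G.R01 B) P01]
  /-- Restriction of sections over `U0` to the overlap. -/
  r0 : P0 →ₗ[B] P01
  /-- Restriction of sections over `U1` to the overlap. -/
  r1 : P1 →ₗ[B] P01
  /-- Restriction from `U0` is semilinear. -/
  r0_smul : ∀ (a : G.R0 B) (p : P0), r0 (a • p) = G.ρ0 B a • r0 p
  /-- Restriction from `U1` is semilinear. -/
  r1_smul : ∀ (a : G.R1 B) (p : P1), r1 (a • p) = G.ρ1 B a • r1 p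
  /-- Restriction from `U0` is injective. -/
  r0_inj : Function.Injective r0
  /-- Restriction from `U1` is injective. -/
  r1_inj : Function.Injective r1
  /-- A section over the overlap times a power of `x` extends to `U0`. -/
  r0_surj : ∀ z : P01, ∃ (n : ℕ) (p : P0), r0 p = ((G.xUnit B : G.R01 B) ^ n) • z
  /-- A section over the overlap times a power of `y` extends to `U1`. -/
  r1_surj : ∀ z : P01, ∃ (n : ℕ) (p : P1), r1 p = ((↑(G.xUnit B)⁻¹ : G.R01 B) ^ n) • z

namespace Datum

attribute [instance] acg0 acg1 acg01 mod0 mod1 mod01 modB0 modB1 modB01 tower0 tower1 tower01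
  inv0 inv1 inv01

variable {G} {B : Type u} [CommRing B] [Algebra k B]

/-- The Čech differential. -/
def d (D : Datum G B) : D.P0 × D.P1 →ₗ[B] D.P01 :=
  D.r0.comp (LinearMap.fst B D.P0 D.P1) - D.r1.comp (LinearMap.snd B D.P0 D.P1)

/-- The differential is the difference of the restrictions. -/
lemma d_apply (D : Datum G B) (p : D.P0 × D.P1) : D.d p = D.r0 p.1 - D.r1 p.2 := rfl

/-- Global sections. -/
abbrev H0 (D : Datum G B) : Submodule B (D.P0 × D.P1) := LinearMap.ker D.d

/-- First cohomology. -/
abbrev H1 (D : Datum G B) : Type u := D.P01 ⧸ LinearMap.range D.d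

/-- Isomorphism of data. -/
structure Equiv (D D' : Datum G B) where
  /-- The isomorphism of the sections over `U0`. -/
  e0 : D.P0 ≃ₗ[G.R0 B] D'.P0
  /-- The isomorphism of the sections over `U1`. -/
  e1 : D.P1 ≃ₗ[G.R1 B] D'.P1
  /-- The isomorphism of the sections over the overlap. -/
  e01 : D.P01 ≃ₗ[G.R01 B] D'.P01
  /-- The maps commute with restriction from `U0`. -/
  comm0 : ∀ p, D'.r0 (e0 p) = e01 (D.r0 p)
  /-- The maps commute with restriction from `U1`. -/
  comm1 : ∀ p, D'.r1 (e1 p) = e01 (D.r1 p)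

/-- The identity. -/
def Equiv.refl (D : Datum G B) : Equiv D D where
  e0 := LinearEquiv.refl _ _
  e1 := LinearEquiv.refl _ _
  e01 := LinearEquiv.refl _ _
  comm0 _ := rfl
  comm1 _ := rfl

/-- The inverse. -/
def Equiv.symm {D D' : Datum G B} (e : Equiv D D') : Equiv D' D where
  e0 := e.e0.symm
  e1 := e.e1.symm
  e01 := e.e01.symm
  comm0 p := by
    apply e.e01.injective
    rw [← e.comm0, LinearEquiv.apply_symm_apply, LinearEquiv.apply_symm_apply]
  comm1 p := by
    apply e.e01.injective
    rw [← e.comm1, LinearEquiv.apply_symm_apply, LinearEquiv.apply_symm_apply]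

/-- Composition. -/
def Equiv.trans {D D' D'' : Datum G B} (e : Equiv D D') (f : Equiv D' D'') : Equiv D D'' where
  e0 := e.e0.trans f.e0
  e1 := e.e1.trans f.e1
  e01 := e.e01.trans f.e01
  comm0 p := by simp [f.comm0, e.comm0]
  comm1 p := by simp [f.comm1, e.comm1]

variable {B' : Type u} [CommRing B'] [Algebra k B']

/-- `D'` is a base change of `D` along `φ`: semilinear maps commuting with restrictions whose
images span (for invertible modules this is equivalent to being a base change). -/
structure BC (φ : B →ₐ[k] B') (D : Datum G B) (D' : Datum G B') where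
  /-- The semilinear map of sections over `U0`. -/
  f0 : D.P0 →+ D'.P0
  /-- The semilinear map of sections over `U1`. -/
  f1 : D.P1 →+ D'.P1
  /-- The semilinear map of sections over the overlap. -/
  f01 : D.P01 →+ D'.P01
  /-- `f0` is semilinear. -/
  smul0 : ∀ (a : G.R0 B) p, f0 (a • p) = G.bc0 φ a • f0 p
  /-- `f1` is semilinear. -/
  smul1 : ∀ (a : G.R1 B) p, f1 (a • p) = G.bc1 φ a • f1 p
  /-- `f01` is semilinear. -/
  smul01 : ∀ (a : G.R01 B) p, f01 (a • p) = G.bc01 φ a • f01 p
  /-- The maps commute with restriction from `U0`. -/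
  comm0 : ∀ p, D'.r0 (f0 p) = f01 (D.r0 p)
  /-- The maps commute with restriction from `U1`. -/
  comm1 : ∀ p, D'.r1 (f1 p) = f01 (D.r1 p)
  /-- The image of `f0` spans. -/
  span0 : Submodule.span (G.R0 B') (Set.range f0) = ⊤
  /-- The image of `f1` spans. -/
  span1 : Submodule.span (G.R1 B') (Set.range f1) = ⊤
  /-- The image of `f01` spans. -/
  span01 : Submodule.span (G.R01 B') (Set.range f01) = ⊤

/-- Twist by `n` times the polar divisor of `x`. -/
def twist (D : Datum G B) (n : ℤ) : Datum G B where
  P0 := D.P0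
  P1 := D.P1
  P01 := D.P01
  r0 := D.r0
  r1 := (DistribSMul.toLinearMap B D.P01 (↑(G.xUnit B ^ n) : G.R01 B)).comp D.r1
  r0_smul := D.r0_smul
  r1_smul a p := by
    change (↑(G.xUnit B ^ n) : G.R01 B) • D.r1 (a • p) =
      G.ρ1 B a • ((↑(G.xUnit B ^ n) : G.R01 B) • D.r1 p)
    rw [D.r1_smul, smul_comm]
  r0_inj := D.r0_inj
  r1_inj := fun p q h ↦ D.r1_inj ((G.xUnit B ^ n).isUnit.smul_left_cancel.mp h)
  r0_surj := D.r0_surj
  r1_surj z := by
    obtain ⟨m, p, hp⟩ := D.r1_surj ((↑(G.xUnit B ^ n)⁻¹ : G.R01 B) • z)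
    refine ⟨m, p, ?_⟩
    change (↑(G.xUnit B ^ n) : G.R01 B) • D.r1 p = _
    rw [hp, smul_comm, ← mul_smul (↑(G.xUnit B ^ n) : G.R01 B), Units.mul_inv, one_smul]

/-- Localisation away from `x` is still surjective up to powers of `x` after base change. -/
lemma exists_map_eq_pow_mul {A A' : Type u} [CommRing A] [CommRing A'] [Algebra k A] [Algebra k A']
    (res : A →ₐ[k] A') (x : A) (hloc : letI := res.toRingHom.toAlgebra; IsLocalization.Away x A')
    (z : B ⊗[k] A') : ∃ (n : ℕ) (p : B ⊗[k] A),
      Algebra.TensorProduct.map (AlgHom.id B B) res p = ((1 : B) ⊗ₜ res x) ^ n * z := by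
  let := res.toRingHom.toAlgebra
  induction z using TensorProduct.induction_on with
  | zero => exact ⟨0, 0, by simp⟩
  | tmul b a =>
    obtain ⟨⟨c, ⟨_, n, rfl⟩⟩, hc⟩ := IsLocalization.surj (Submonoid.powers x) a
    refine ⟨n, b ⊗ₜ c, ?_⟩
    rw [Algebra.TensorProduct.tmul_pow, Algebra.TensorProduct.tmul_mul_tmul, one_pow, one_mul,
      mul_comm, ← map_pow]
    exact congrArg (b ⊗ₜ[k] ·) hc.symm
  | add z w hz hw =>
    obtain ⟨n, p, hp⟩ := hz
    obtain ⟨m, q, hq⟩ := hw
    refine ⟨n + m, ((1 : B) ⊗ₜ x) ^ m * p + ((1 : B) ⊗ₜ x) ^ n * q, ?_⟩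
    rw [map_add, map_mul, map_mul, map_pow, map_pow, hp, hq, Algebra.TensorProduct.map_tmul,
      AlgHom.id_apply]
    ring

variable (G B) in
/-- The trivial line bundle. -/
def trivial : Datum G B where
  P0 := G.R0 B
  P1 := G.R1 B
  P01 := G.R01 B
  r0 := (G.ρ0 B).toLinearMap
  r1 := (G.ρ1 B).toLinearMap
  r0_smul a p := map_mul (G.ρ0 B) a p
  r1_smul a p := map_mul (G.ρ1 B) a p
  -- injectivity: localisation at `x` stays injective after the flat base change
  r0_inj := by
    refine Module.Flat.lTensor_preserves_injective_linearMap (M := B) G.res0.toLinearMap ?_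
    let := G.res0.toRingHom.toAlgebra
    have := G.loc0
    refine IsLocalization.injective G.A01 (M := Submonoid.powers G.x) ?_
    refine powers_le_nonZeroDivisors_of_noZeroDivisors fun h ↦ ?_
    simpa [h] using G.res0_mul_res1
  r1_inj := by
    refine Module.Flat.lTensor_preserves_injective_linearMap (M := B) G.res1.toLinearMap ?_
    let := G.res1.toRingHom.toAlgebra
    have := G.loc1
    refine IsLocalization.injective G.A01 (M := Submonoid.powers G.y) ?_
    refine powers_le_nonZeroDivisors_of_noZeroDivisors fun h ↦ ?_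
    simpa [h] using G.res0_mul_res1
  -- surjectivity up to powers of `x` and `y`
  r0_surj := exists_map_eq_pow_mul G.res0 G.x G.loc0
  r1_surj := exists_map_eq_pow_mul G.res1 G.y G.loc1

section Field

variable {K : Type u} [Field K] [Algebra k K]

/-- `h⁰`. -/
def h0 (D : Datum G K) : ℕ := Module.finrank K D.H0

/-- `h¹`. -/
def h1 (D : Datum G K) : ℕ := Module.finrank K D.H1

/-- Euler characteristic. -/
def χ (D : Datum G K) : ℤ := (D.h0 : ℤ) - D.h1

/-- Degree. -/
def degree (D : Datum G K) : ℤ := D.χ - (Datum.trivial G K).χ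

end Field

end Datum

/-- The genus. -/
def CurveCharts.genus : ℕ := (Datum.trivial G k).h1

end

end Fermat.PIC
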