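import Fermat.Agent.PIC.InvertibleModule

/-!
# Invertible ideals and the submodules they cut out of invertible modules

An ideal with a complementary ideal is invertible (`invertible_of_mul_eq_span`), and so are its
multiples of invertible modules.
-/

set_option autoImplicit false

universe u

open scoped TensorProduct nonZeroDivisors

namespace Fermat.PIC

noncomputable section

variable {R : Type*} [CommRing R] {M : Type*} [AddCommGroup M] [Module R M]

/-- Rank one identity for an ideal. -/
lemma ideal_smul_comm (I : Ideal R) (f : Module.Dual R I) (m n : I) (p : I) (hp : (p : R) ∈ R⁰) :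
    f m • n = f n • m := by
  have key : ∀ a : I, (p : R) * f a = (a : R) * f p := fun a ↦ by
    rw [← smul_eq_mul, ← map_smul, ← smul_eq_mul, ← map_smul]
    congr 1
    ext
    simp [mul_comm]
  ext
  refine (mul_cancel_left_mem_nonZeroDivisors hp).mp ?_
  simp only [SetLike.val_smul, smul_eq_mul]
  linear_combination (n : R) * key m - (m : R) * key n

/-- A finite projective ideal containing a nonzerodivisor is invertible. -/
lemma invertible_of_projective (I : Ideal R) [Module.Finite R I] [Module.Projective R I]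
    {p : R} (hp : p ∈ I) (hp' : p ∈ R⁰) : Module.Invertible R I := by
  refine invertible_of_contract ?_ fun f m n ↦ ideal_smul_comm I f m n ⟨p, hp⟩ hp'
  classical
  obtain ⟨n, g, hg⟩ := Module.Finite.exists_fin' R I
  obtain ⟨s, hs⟩ := Module.projective_lifting_property g LinearMap.id hg
  let b := Pi.basisFun R (Fin n)
  refine ⟨∑ i, ((LinearMap.proj i).comp s) ⊗ₜ g (b i), ?_⟩
  simp only [map_sum, contractLeft_apply, LinearMap.coe_comp, Function.comp_apply,
    LinearMap.proj_apply]
  refine (mul_cancel_left_mem_nonZeroDivisors hp').mp ?_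
  rw [Finset.mul_sum, mul_one]
  have h1 : (g (s ⟨p, hp⟩) : R) = p := by
    have := LinearMap.congr_fun hs (⟨p, hp⟩ : I)
    simp only [LinearMap.coe_comp, Function.comp_apply, LinearMap.id_apply] at this
    rw [this]
  conv_rhs => rw [← h1, ← b.sum_repr (s ⟨p, hp⟩)]
  simp only [map_sum, map_smul, AddSubmonoidClass.coe_finsetSum, SetLike.val_smul, smul_eq_mul,
    b, Pi.basisFun_repr]
  refine Finset.sum_congr rfl fun i _ ↦ ?_
  have : ((g (b i) : I) : R) • (⟨p, hp⟩ : I) = p • g (b i) := by
    ext
    simp [mul_comm]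
  have h2 := congrFun ((congrArg s this).symm.trans (map_smul s _ _)) i
  rw [map_smul] at h2
  simpa [b, Pi.smul_apply, mul_comm] using h2

/-- An ideal with a complementary ideal is invertible. -/
lemma invertible_of_mul_eq_span (I J : Ideal R) {p : R} (h : I * J = Ideal.span {p})
    (hp : p ∈ R⁰) : Module.Invertible R I := by
  have hmem : p ∈ I * J := by rw [h]; exact Ideal.mem_span_singleton_self p
  have hpI : p ∈ I := (Ideal.mul_le_inf hmem).1
  refine invertible_of_contract ?_ fun f m n ↦ ideal_smul_comm I f m n ⟨p, hpI⟩ hp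
  have hdual : ∀ b ∈ J, ∃ φ : Module.Dual R I, ∀ z : I, p * φ z = (z : R) * b := by
    intro b hb
    choose c hc using fun z : I ↦
      Ideal.mem_span_singleton'.mp (h.le (Ideal.mul_mem_mul z.2 hb))
    refine ⟨{ toFun := c, map_add' := ?_, map_smul' := ?_ }, fun z ↦ ?_⟩
    · intro x y
      refine (mul_cancel_right_mem_nonZeroDivisors hp).mp ?_
      rw [add_mul, hc, hc, hc, Submodule.coe_add, add_mul]
    · intro r x
      refine (mul_cancel_right_mem_nonZeroDivisors hp).mp ?_
      rw [RingHom.id_apply, smul_eq_mul, mul_assoc, hc, hc, SetLike.val_smul, smul_eq_mul,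
        mul_assoc]
    · rw [mul_comm]
      exact hc z
  suffices H : ∀ z ∈ I * J, ∃ w, p * contractLeft R I w = z by
    obtain ⟨w, hw⟩ := H p hmem
    exact ⟨w, (mul_cancel_left_mem_nonZeroDivisors hp).mp (hw.trans (mul_one p).symm)⟩
  intro z hz
  refine Submodule.mul_induction_on hz (fun a ha b hb ↦ ?_) fun x y hx hy ↦ ?_
  · obtain ⟨φ, hφ⟩ := hdual b hb
    exact ⟨φ ⊗ₜ ⟨a, ha⟩, by rw [contractLeft_apply, hφ]⟩
  · obtain ⟨v, rfl⟩ := hx
    obtain ⟨w, rfl⟩ := hy
    exact ⟨v + w, by rw [map_add, mul_add]⟩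

/-- An invertible ideal containing a nonzerodivisor has a complementary ideal. -/
lemma exists_mul_eq_span (I : Ideal R) [Module.Invertible R I] {p : R} (hp : p ∈ I) :
    ∃ J : Ideal R, p ∈ J ∧ I * J = Ideal.span {p} := by
  let J : Ideal R := LinearMap.range (LinearMap.applyₗ (⟨p, hp⟩ : I) : Module.Dual R I →ₗ[R] R)
  have key : ∀ (φ : Module.Dual R I) (z : I), (z : R) * φ ⟨p, hp⟩ = p * φ z := fun φ z ↦ by
    rw [← smul_eq_mul, ← map_smul, ← smul_eq_mul, ← map_smul]
    congr 1
    ext
    simp [mul_comm]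
  refine ⟨J, ⟨I.subtype, rfl⟩, le_antisymm ?_ ?_⟩
  · refine Ideal.mul_le.mpr ?_
    rintro z hz _ ⟨φ, rfl⟩
    exact Ideal.mem_span_singleton.mpr ⟨φ ⟨z, hz⟩, key φ ⟨z, hz⟩⟩
  · rw [Ideal.span_singleton_le_iff_mem]
    obtain ⟨e, he⟩ := (Module.Invertible.bijective (R := R) (M := I)).2 1
    suffices H : ∀ w, p * contractLeft R I w ∈ I * J by
      simpa [he] using H e
    intro w
    induction w using TensorProduct.induction_on with
    | zero => simp
    | add x y hx hy => rw [map_add, mul_add]; exact add_mem hx hy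
    | tmul φ z =>
      rw [contractLeft_apply, ← key]
      exact Ideal.mul_mem_mul z.2 ⟨φ, rfl⟩

/-- An invertible ideal times an invertible module. -/
lemma invertible_smul_top (I : Ideal R) [Module.Invertible R I] [Module.Invertible R M] :
    Module.Invertible R (I • ⊤ : Submodule R M) := by
  let f : I ⊗[R] M →ₗ[R] M := (TensorProduct.lid R M).toLinearMap ∘ₗ (I.subtype.rTensor M)
  have hinj : Function.Injective f :=
    (TensorProduct.lid R M).injective.comp
      (Module.Flat.rTensor_preserves_injective_linearMap _ Subtype.val_injective)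
  have hr : LinearMap.range f = I • ⊤ := by
    apply le_antisymm
    · rintro _ ⟨w, rfl⟩
      induction w using TensorProduct.induction_on with
      | zero => simp
      | add x y hx hy => rw [map_add]; exact add_mem hx hy
      | tmul a m =>
        have : f (a ⊗ₜ m) = (a : R) • m := by simp [f]
        rw [this]
        exact Submodule.smul_mem_smul a.2 trivial
    · exact Submodule.smul_le.mpr fun a ha m _ ↦ ⟨⟨a, ha⟩ ⊗ₜ m, by simp [f]⟩
  exact Module.Invertible.congr ((LinearEquiv.ofInjective f hinj).trans (LinearEquiv.ofEq _ _ hr))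

section Comap

variable {S : Type*} [CommRing S] (ρ : R →+* S) (y : R)

/-- Ideals of a localisation at `y` with product generated by some `u` prime to `y` contract to
ideals with product `(u)`, and the first contraction extends back to the ideal. -/
lemma comap_mul_comap (hy : IsUnit (ρ y)) (hinj : Function.Injective ρ)
    (hsurj : ∀ z : S, ∃ (n : ℕ) (a : R), ρ a = ρ y ^ n * z) (I J : Ideal S) {u : R}
    (hu1 : ∃ a b : R, a * y + b * u = 1)
    (hIJ : I * J = Ideal.span {ρ u}) :
    I.comap ρ * J.comap ρ = Ideal.span {u} ∧ (I.comap ρ).map ρ = I := by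
  have hu : ρ u ∈ I * J := by rw [hIJ]; exact Ideal.mem_span_singleton_self _
  have huI : u ∈ I.comap ρ := Ideal.mem_comap.mpr ((Ideal.mul_le_inf hu).1)
  have huJ : u ∈ J.comap ρ := Ideal.mem_comap.mpr ((Ideal.mul_le_inf hu).2)
  have hmap : ∀ K : Ideal S, (K.comap ρ).map ρ = K := fun K ↦ by
    refine le_antisymm Ideal.map_comap_le fun z hz ↦ ?_
    obtain ⟨n, a, ha⟩ := hsurj z
    have hz' : ρ a ∈ (K.comap ρ).map ρ :=
      Ideal.mem_map_of_mem ρ (by rw [Ideal.mem_comap, ha]; exact K.mul_mem_left _ hz)
    rw [ha] at hz'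
    exact (Ideal.unit_mul_mem_iff_mem _ (hy.pow n)).mp hz'
  obtain ⟨a, b, hab⟩ := hu1
  -- above `u` the factor `y` is invertible, so powers of `y` cancel
  have step : ∀ (T : Ideal R) (z : R), u * z ∈ T → ∀ n, y ^ n * z ∈ T → z ∈ T := by
    intro T z huz n
    induction n generalizing z with
    | zero => intro h; simpa using h
    | succ n ih =>
      intro h
      have hyz : y * z ∈ T :=
        ih (y * z) (by rw [mul_left_comm]; exact T.mul_mem_left _ huz)
          (by rwa [pow_succ, mul_assoc] at h)
      have : z = a * (y * z) + b * (u * z) := by linear_combination -z * hab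
      rw [this]
      exact add_mem (T.mul_mem_left _ hyz) (T.mul_mem_left _ huz)
  refine ⟨le_antisymm ?_ ?_, hmap I⟩
  · intro z hz
    have : ρ z ∈ Ideal.span {ρ u} := by
      rw [← hIJ, ← hmap I, ← hmap J, ← Ideal.map_mul]
      exact Ideal.mem_map_of_mem ρ hz
    obtain ⟨c, hc⟩ := Ideal.mem_span_singleton'.mp this
    obtain ⟨n, c', hc'⟩ := hsurj c
    refine step _ z (Ideal.mul_mem_right _ _ (Ideal.mem_span_singleton_self u)) n
      (Ideal.mem_span_singleton'.mpr ⟨c', hinj ?_⟩)
    rw [map_mul, hc', map_mul, map_pow, ← hc, mul_assoc]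
  · rw [Ideal.span_singleton_le_iff_mem]
    have : ρ u ∈ (I.comap ρ * J.comap ρ).map ρ := by
      rw [Ideal.map_mul, hmap, hmap, hIJ]
      exact Ideal.mem_span_singleton_self _
    -- an element of the extension is one of the product up to a power of `y`
    have key : ∀ z ∈ (I.comap ρ * J.comap ρ).map ρ,
        ∃ (n : ℕ) (w : R), w ∈ I.comap ρ * J.comap ρ ∧ ρ w = ρ y ^ n * z := by
      intro z hz
      refine Submodule.span_induction ?_ ?_ ?_ ?_ hz
      · rintro _ ⟨w, hw, rfl⟩
        exact ⟨0, w, hw, by simp⟩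
      · exact ⟨0, 0, zero_mem _, by simp⟩
      · rintro x x' - - ⟨n, w, hw, hρ⟩ ⟨n', w', hw', hρ'⟩
        refine ⟨n + n', y ^ n' * w + y ^ n * w',
          add_mem (Ideal.mul_mem_left _ _ hw) (Ideal.mul_mem_left _ _ hw'), ?_⟩
        rw [map_add, map_mul, map_mul, map_pow, map_pow, hρ, hρ', pow_add]
        ring
      · rintro r x - ⟨n, w, hw, hρ⟩
        obtain ⟨m, r', hr'⟩ := hsurj r
        refine ⟨m + n, r' * w, Ideal.mul_mem_left _ _ hw, ?_⟩
        rw [map_mul, hr', hρ, pow_add, smul_eq_mul]
        ring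
    obtain ⟨n, w, hw, hρ⟩ := key _ this
    refine step _ u (Ideal.mul_mem_mul huI huJ) n ?_
    rw [show y ^ n * u = w from hinj (by rw [map_mul, map_pow, hρ])]
    exact hw

end Comap

end

end Fermat.PIC
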