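import Fermat.Agent.PIC.Chart.Datum
import Fermat.Agent.PIC.Chart.Ideals
import Mathlib

/-!
# Effective relative divisors in the two-chart description

They are pairs of invertible ideals which agree on the overlap and stay invertible after every base
change.
-/

set_option autoImplicit false

universe u

open scoped nonZeroDivisors

namespace Fermat.PIC

noncomputable section

variable {k : Type u} [Field k]

namespace CurveCharts

variable (G : CurveCharts k) {B B' B'' : Type u} [CommRing B] [Algebra k B] [CommRing B']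
  [Algebra k B'] [CommRing B''] [Algebra k B'']

/-- A function on `U0` which is a nonzerodivisor after every base change. -/
def UReg0 (p : G.R0 B) : Prop :=
  ∀ (B' : Type u) [CommRing B'] [Algebra k B'] (φ : B →ₐ[k] B'), G.bc0 φ p ∈ (G.R0 B')⁰

/-- A function on `U1` which is a nonzerodivisor after every base change. -/
def UReg1 (p : G.R1 B) : Prop :=
  ∀ (B' : Type u) [CommRing B'] [Algebra k B'] (φ : B →ₐ[k] B'), G.bc1 φ p ∈ (G.R1 B')⁰

/-- Base change of functions on `U0` along the identity. -/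
lemma bc0_id (a : G.R0 B) : G.bc0 (AlgHom.id k B) a = a := by
  simp [bc0]

/-- Base change of functions on `U1` along the identity. -/
lemma bc1_id (a : G.R1 B) : G.bc1 (AlgHom.id k B) a = a := by
  simp [bc1]

/-- Base change of functions on the overlap along the identity. -/
lemma bc01_id (a : G.R01 B) : G.bc01 (AlgHom.id k B) a = a := by
  simp [bc01]

/-- Base changes of functions on `U0` compose. -/
lemma bc0_bc0 (φ : B →ₐ[k] B') (ψ : B' →ₐ[k] B'') (a : G.R0 B) :
    G.bc0 ψ (G.bc0 φ a) = G.bc0 (ψ.comp φ) a := by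
  induction a using TensorProduct.induction_on with
  | zero => simp
  | tmul b c => simp [bc0]
  | add v w hv hw => simp [map_add, hv, hw]

/-- Base changes of functions on `U1` compose. -/
lemma bc1_bc1 (φ : B →ₐ[k] B') (ψ : B' →ₐ[k] B'') (a : G.R1 B) :
    G.bc1 ψ (G.bc1 φ a) = G.bc1 (ψ.comp φ) a := by
  induction a using TensorProduct.induction_on with
  | zero => simp
  | tmul b c => simp [bc1]
  | add v w hv hw => simp [map_add, hv, hw]

/-- Base changes of functions on the overlap compose. -/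
lemma bc01_bc01 (φ : B →ₐ[k] B') (ψ : B' →ₐ[k] B'') (a : G.R01 B) :
    G.bc01 ψ (G.bc01 φ a) = G.bc01 (ψ.comp φ) a := by
  induction a using TensorProduct.induction_on with
  | zero => simp
  | tmul b c => simp [bc01]
  | add v w hv hw => simp [map_add, hv, hw]

/-- Restriction from `U0` commutes with base change. -/
lemma ρ0_bc0 (φ : B →ₐ[k] B') (a : G.R0 B) : G.ρ0 B' (G.bc0 φ a) = G.bc01 φ (G.ρ0 B a) := by
  induction a using TensorProduct.induction_on with
  | zero => simp
  | tmul b c => simp [ρ0, bc0, bc01]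
  | add v w hv hw => simp [map_add, hv, hw]

/-- Restriction from `U1` commutes with base change. -/
lemma ρ1_bc1 (φ : B →ₐ[k] B') (a : G.R1 B) : G.ρ1 B' (G.bc1 φ a) = G.bc01 φ (G.ρ1 B a) := by
  induction a using TensorProduct.induction_on with
  | zero => simp
  | tmul b c => simp [ρ1, bc1, bc01]
  | add v w hv hw => simp [map_add, hv, hw]

/-- Base change preserves the coordinate. -/
lemma bc0_X0 (φ : B →ₐ[k] B') : G.bc0 φ (G.X0 B) = G.X0 B' := by
  simp [bc0, X0]

/-- Base change preserves the inverse coordinate. -/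
lemma bc1_Y1 (φ : B →ₐ[k] B') : G.bc1 φ (G.Y1 B) = G.Y1 B' := by
  simp [bc1, Y1]

variable (B) in
/-- Restriction from `U0` is injective. -/
lemma ρ0_injective : Function.Injective (G.ρ0 B) := (Datum.trivial G B).r0_inj

variable (B) in
/-- Restriction from `U1` is injective. -/
lemma ρ1_injective : Function.Injective (G.ρ1 B) := (Datum.trivial G B).r1_inj

/-- A function on the overlap extends to `U0` after multiplying by a power of `x`. -/
lemma exists_ρ0_eq (z : G.R01 B) :
    ∃ (n : ℕ) (a : G.R0 B), G.ρ0 B a = G.ρ0 B (G.X0 B) ^ n * z :=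
  (Datum.trivial G B).r0_surj z

/-- A function on the overlap extends to `U1` after multiplying by a power of `y`. -/
lemma exists_ρ1_eq (z : G.R01 B) :
    ∃ (n : ℕ) (a : G.R1 B), G.ρ1 B a = G.ρ1 B (G.Y1 B) ^ n * z :=
  (Datum.trivial G B).r1_surj z

/-- Nonzerodivisors on `U0` stay so on the overlap. -/
lemma ρ0_mem_nonZeroDivisors {p : G.R0 B} (hp : p ∈ (G.R0 B)⁰) :
    G.ρ0 B p ∈ (G.R01 B)⁰ := by
  rw [mem_nonZeroDivisors_iff_right]
  intro z hz
  obtain ⟨n, a, ha⟩ := G.exists_ρ0_eq z
  have h0 : a * p = 0 := G.ρ0_injective B (by rw [map_mul, ha, mul_assoc, hz, mul_zero, map_zero])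
  rw [(mem_nonZeroDivisors_iff_right.mp hp) a h0, map_zero] at ha
  exact (((G.xUnit B).isUnit.pow n).mul_right_eq_zero).mp ha.symm

/-- Nonzerodivisors on `U1` stay so on the overlap. -/
lemma ρ1_mem_nonZeroDivisors {p : G.R1 B} (hp : p ∈ (G.R1 B)⁰) :
    G.ρ1 B p ∈ (G.R01 B)⁰ := by
  rw [mem_nonZeroDivisors_iff_right]
  intro z hz
  obtain ⟨n, a, ha⟩ := G.exists_ρ1_eq z
  have h0 : a * p = 0 := G.ρ1_injective B (by rw [map_mul, ha, mul_assoc, hz, mul_zero, map_zero])
  rw [(mem_nonZeroDivisors_iff_right.mp hp) a h0, map_zero] at ha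
  exact (((G.xUnit B)⁻¹.isUnit.pow n).mul_right_eq_zero).mp ha.symm

variable {G}

/-- A universally regular function on `U0` is a nonzerodivisor. -/
lemma UReg0.mem {p : G.R0 B} (hp : G.UReg0 p) : p ∈ (G.R0 B)⁰ := by
  have h := hp B (AlgHom.id k B)
  rwa [G.bc0_id] at h

/-- A universally regular function on `U1` is a nonzerodivisor. -/
lemma UReg1.mem {p : G.R1 B} (hp : G.UReg1 p) : p ∈ (G.R1 B)⁰ := by
  have h := hp B (AlgHom.id k B)
  rwa [G.bc1_id] at h

/-- Universally regular functions on `U0` multiply. -/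
lemma UReg0.mul {p q : G.R0 B} (hp : G.UReg0 p) (hq : G.UReg0 q) : G.UReg0 (p * q) :=
  fun B' _ _ φ ↦ by rw [map_mul]; exact mul_mem (hp B' φ) (hq B' φ)

/-- Universally regular functions on `U1` multiply. -/
lemma UReg1.mul {p q : G.R1 B} (hp : G.UReg1 p) (hq : G.UReg1 q) : G.UReg1 (p * q) :=
  fun B' _ _ φ ↦ by rw [map_mul]; exact mul_mem (hp B' φ) (hq B' φ)

/-- Universal regularity on `U0` is preserved by base change. -/
lemma UReg0.map {p : G.R0 B} (hp : G.UReg0 p) (φ : B →ₐ[k] B') : G.UReg0 (G.bc0 φ p) :=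
  fun B'' _ _ ψ ↦ by rw [G.bc0_bc0]; exact hp B'' _

/-- Universal regularity on `U1` is preserved by base change. -/
lemma UReg1.map {p : G.R1 B} (hp : G.UReg1 p) (φ : B →ₐ[k] B') : G.UReg1 (G.bc1 φ p) :=
  fun B'' _ _ ψ ↦ by rw [G.bc1_bc1]; exact hp B'' _

/-- One is universally regular on `U0`. -/
lemma ureg0_one : G.UReg0 (1 : G.R0 B) := fun B' _ _ φ ↦ by rw [map_one]; exact one_mem _

/-- One is universally regular on `U1`. -/
lemma ureg1_one : G.UReg1 (1 : G.R1 B) := fun B' _ _ φ ↦ by rw [map_one]; exact one_mem _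

end CurveCharts

/-- An effective relative divisor on the curve over `B`, given by its ideals on the two charts. -/
structure Div (G : CurveCharts k) (B : Type u) [CommRing B] [Algebra k B] where
  /-- The ideal on `U0`. -/
  I0 : Ideal (G.R0 B)
  /-- The ideal on `U1`. -/
  I1 : Ideal (G.R1 B)
  /-- The ideals agree on the overlap. -/
  compat : I0.map (G.ρ0 B) = I1.map (G.ρ1 B)
  /-- `I0` divides a principal ideal with universally regular generator. -/
  cofactor0 : ∃ (p : G.R0 B) (J : Ideal (G.R0 B)), G.UReg0 p ∧ I0 * J = Ideal.span {p}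
  /-- `I1` divides a principal ideal with universally regular generator. -/
  cofactor1 : ∃ (p : G.R1 B) (J : Ideal (G.R1 B)), G.UReg1 p ∧ I1 * J = Ideal.span {p}

namespace Div

variable {G : CurveCharts k} {B B' B'' : Type u} [CommRing B] [Algebra k B] [CommRing B']
  [Algebra k B'] [CommRing B''] [Algebra k B'']

/-- The two chart ideals determine a divisor. -/
lemma ext' {E F : Div G B} (h0 : E.I0 = F.I0) (h1 : E.I1 = F.I1) : E = F := by
  cases E
  cases F
  cases h0
  cases h1
  rfl

/-- The ideal on the overlap. -/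
def I01 (E : Div G B) : Ideal (G.R01 B) := E.I0.map (G.ρ0 B)

/-- The ideal on the overlap is also extended from `U1`. -/
lemma I01_eq (E : Div G B) : E.I01 = E.I1.map (G.ρ1 B) := E.compat

/-- The ideal on `U0` is invertible. -/
instance invertible0 (E : Div G B) : Module.Invertible (G.R0 B) E.I0 := by
  obtain ⟨p, J, hp, h⟩ := E.cofactor0
  exact invertible_of_mul_eq_span _ J h hp.mem

/-- The ideal on `U1` is invertible. -/
instance invertible1 (E : Div G B) : Module.Invertible (G.R1 B) E.I1 := by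
  obtain ⟨p, J, hp, h⟩ := E.cofactor1
  exact invertible_of_mul_eq_span _ J h hp.mem

/-- The ideal on the overlap is invertible. -/
instance invertible01 (E : Div G B) : Module.Invertible (G.R01 B) E.I01 := by
  obtain ⟨p, J, hp, h⟩ := E.cofactor0
  refine invertible_of_mul_eq_span _ (J.map (G.ρ0 B)) (p := G.ρ0 B p) ?_
    (G.ρ0_mem_nonZeroDivisors hp.mem)
  rw [I01, ← Ideal.map_mul, h, Ideal.map_span, Set.image_singleton]

/-- The empty divisor. -/
def unit (G : CurveCharts k) (B : Type u) [CommRing B] [Algebra k B] : Div G B where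
  I0 := ⊤
  I1 := ⊤
  compat := by rw [Ideal.map_top, Ideal.map_top]
  cofactor0 := ⟨1, ⊤, CurveCharts.ureg0_one, by rw [Ideal.top_mul, Ideal.span_singleton_one]⟩
  cofactor1 := ⟨1, ⊤, CurveCharts.ureg1_one, by rw [Ideal.top_mul, Ideal.span_singleton_one]⟩

/-- Sum of divisors. -/
def mul (E F : Div G B) : Div G B where
  I0 := E.I0 * F.I0
  I1 := E.I1 * F.I1
  compat := by rw [Ideal.map_mul, Ideal.map_mul, E.compat, F.compat]
  cofactor0 := by
    obtain ⟨p, J, hp, h⟩ := E.cofactor0
    obtain ⟨q, K, hq, h'⟩ := F.cofactor0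
    exact ⟨p * q, J * K, hp.mul hq,
      by rw [mul_mul_mul_comm, h, h', Ideal.span_singleton_mul_span_singleton]⟩
  cofactor1 := by
    obtain ⟨p, J, hp, h⟩ := E.cofactor1
    obtain ⟨q, K, hq, h'⟩ := F.cofactor1
    exact ⟨p * q, J * K, hp.mul hq,
      by rw [mul_mul_mul_comm, h, h', Ideal.span_singleton_mul_span_singleton]⟩

/-- Divisors form a commutative monoid under addition, written multiplicatively. -/
instance : CommMonoid (Div G B) where
  one := unit G B
  mul := mul
  mul_assoc E F F' := ext' (mul_assoc _ _ _) (mul_assoc _ _ _)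
  one_mul E := ext' (Ideal.top_mul _) (Ideal.top_mul _)
  mul_one E := ext' (Ideal.mul_top _) (Ideal.mul_top _)
  mul_comm E F := ext' (mul_comm _ _) (mul_comm _ _)

/-- The empty divisor is trivial on `U0`. -/
lemma one_I0 : (1 : Div G B).I0 = ⊤ := rfl
/-- The empty divisor is trivial on `U1`. -/
lemma one_I1 : (1 : Div G B).I1 = ⊤ := rfl
/-- A sum of divisors is the product of ideals on `U0`. -/
lemma mul_I0 (E F : Div G B) : (E * F).I0 = E.I0 * F.I0 := rfl
/-- A sum of divisors is the product of ideals on `U1`. -/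
lemma mul_I1 (E F : Div G B) : (E * F).I1 = E.I1 * F.I1 := rfl

/-- Base change. -/
def map (φ : B →ₐ[k] B') (E : Div G B) : Div G B' where
  I0 := E.I0.map (G.bc0 φ)
  I1 := E.I1.map (G.bc1 φ)
  compat := by
    have e0 : ((G.ρ0 B' : G.R0 B' →+* G.R01 B')).comp (G.bc0 φ : G.R0 B →+* G.R0 B') =
        (G.bc01 φ : G.R01 B →+* G.R01 B').comp (G.ρ0 B : G.R0 B →+* G.R01 B) :=
      RingHom.ext fun a ↦ G.ρ0_bc0 φ a
    have e1 : ((G.ρ1 B' : G.R1 B' →+* G.R01 B')).comp (G.bc1 φ : G.R1 B →+* G.R1 B') =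
        (G.bc01 φ : G.R01 B →+* G.R01 B').comp (G.ρ1 B : G.R1 B →+* G.R01 B) :=
      RingHom.ext fun a ↦ G.ρ1_bc1 φ a
    change (E.I0.map (G.bc0 φ : G.R0 B →+* G.R0 B')).map (G.ρ0 B' : G.R0 B' →+* G.R01 B') =
      (E.I1.map (G.bc1 φ : G.R1 B →+* G.R1 B')).map (G.ρ1 B' : G.R1 B' →+* G.R01 B')
    rw [Ideal.map_map, Ideal.map_map, e0, e1, ← Ideal.map_map, ← Ideal.map_map]
    exact congrArg (Ideal.map (G.bc01 φ : G.R01 B →+* G.R01 B')) E.compat
  cofactor0 := by
    obtain ⟨p, J, hp, h⟩ := E.cofactor0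
    exact ⟨G.bc0 φ p, J.map (G.bc0 φ), hp.map φ,
      by rw [← Ideal.map_mul, h, Ideal.map_span, Set.image_singleton]⟩
  cofactor1 := by
    obtain ⟨p, J, hp, h⟩ := E.cofactor1
    exact ⟨G.bc1 φ p, J.map (G.bc1 φ), hp.map φ,
      by rw [← Ideal.map_mul, h, Ideal.map_span, Set.image_singleton]⟩

/-- The empty divisor pulls back to the empty one. -/
lemma map_one (φ : B →ₐ[k] B') : (1 : Div G B).map φ = 1 :=
  ext' (Ideal.map_top _) (Ideal.map_top _)

/-- Base change of divisors is additive. -/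
lemma map_mul (φ : B →ₐ[k] B') (E F : Div G B) : (E * F).map φ = E.map φ * F.map φ :=
  ext' (Ideal.map_mul _ _ _) (Ideal.map_mul _ _ _)

/-- Base changes of divisors compose. -/
lemma map_map (φ : B →ₐ[k] B') (ψ : B' →ₐ[k] B'') (E : Div G B) :
    (E.map φ).map ψ = E.map (ψ.comp φ) := by
  refine ext' ?_ ?_
  · change (E.I0.map (G.bc0 φ : G.R0 B →+* G.R0 B')).map (G.bc0 ψ : G.R0 B' →+* G.R0 B'') = _
    rw [Ideal.map_map]
    exact congrArg (Ideal.map · E.I0) (RingHom.ext fun a ↦ G.bc0_bc0 φ ψ a)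
  · change (E.I1.map (G.bc1 φ : G.R1 B →+* G.R1 B')).map (G.bc1 ψ : G.R1 B' →+* G.R1 B'') = _
    rw [Ideal.map_map]
    exact congrArg (Ideal.map · E.I1) (RingHom.ext fun a ↦ G.bc1_bc1 φ ψ a)

end Div

end

end Fermat.PIC
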