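import Fermat.Agent.PIC.Chart.CechBC
import Fermat.Agent.PIC.Chart.BCConstruct
import Mathlib

/-!
# Fibres of a datum

Local constancy of the Euler characteristic, openness of vanishing of `H¹`, and surjectivity of
the Čech differential tested on fibres.

`exists_χ_locallyConstant`, `isOpen_compl_support_H1` and `d_surjective_iff`, the semicontinuity
used for the open charts of the Jacobian and for properness.
-/

set_option autoImplicit false

universe u

open scoped TensorProduct

namespace Fermat.PIC

noncomputable section

variable {k : Type u} [Field k] {B : Type u} [CommRing B] [Algebra k B]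

/-- The point of the base under a field. -/
def fieldPoint (B K : Type u) [CommRing B] [Field K] [Algebra B K] : PrimeSpectrum B :=
  (⊥ : PrimeSpectrum K).comap (algebraMap B K)

/-- The point under a field is the kernel of the structure map. -/
lemma fieldPoint_asIdeal (K : Type u) [Field K] [Algebra B K] :
    (fieldPoint B K).asIdeal = RingHom.ker (algebraMap B K) := rfl

/-- The point under a residue field is the point itself. -/
lemma fieldPoint_residueField (p : PrimeSpectrum B) :
    fieldPoint B p.asIdeal.ResidueField = p := by
  ext1
  rw [fieldPoint_asIdeal, Ideal.ker_algebraMap_residueField]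

/-- The dimension of a fibre of a finite projective module is its rank at the point. -/
lemma finrank_tensor_field (K : Type u) [Field K] [Algebra B K] (M : Type u) [AddCommGroup M]
    [Module B M] [Module.Finite B M] [Module.Projective B M] :
    Module.finrank K (K ⊗[B] M) = Module.rankAtStalk M (fieldPoint B K) := by
  rw [fieldPoint, ← Module.rankAtStalk_baseChange, Module.rankAtStalk_eq_finrank_of_free]
  rfl

/-- A fibre of a finite module is nonzero exactly over its support. -/
lemma nontrivial_tensor_field_iff (K : Type u) [Field K] [Algebra B K] (M : Type u) [AddCommGroup M]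
    [Module B M] [Module.Finite B M] :
    Nontrivial (K ⊗[B] M) ↔ fieldPoint B K ∈ Module.support B M := by
  rw [Module.mem_support_iff_nontrivial_residueField_tensorProduct]
  let I := (fieldPoint B K).asIdeal
  let φ : I.ResidueField →+* K := Ideal.ResidueField.lift I (algebraMap B K) le_rfl
    fun b hb ↦ IsUnit.mk0 _ hb
  let : Algebra I.ResidueField K := φ.toAlgebra
  have : IsScalarTower B I.ResidueField K :=
    IsScalarTower.of_algebraMap_eq fun b ↦ (Ideal.ResidueField.lift_algebraMap _ _ _ _ b).symm
  rw [← (TensorProduct.AlgebraTensorModule.cancelBaseChange B I.ResidueField K K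
    M).nontrivial_congr, Module.FaithfullyFlat.nontrivial_tensorProduct_iff_right]

namespace Datum

variable {G : CurveCharts k} (D : Datum G B)

/-- The fibre at a point of the base. -/
def fibre (p : PrimeSpectrum B) : Datum G p.asIdeal.ResidueField :=
  (D.exists_baseChange p.asIdeal.ResidueField).choose

/-- The fibre is a base change. -/
def fibreBC (p : PrimeSpectrum B) :
    BC (IsScalarTower.toAlgHom k B p.asIdeal.ResidueField) D (D.fibre p) :=
  (D.exists_baseChange p.asIdeal.ResidueField).choose_spec.some

section

variable {K : Type u} [Field K] [Algebra k K] [Algebra B K] [IsScalarTower k B K] {D}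
  {D' : Datum G K}

/-- A fibre has no first cohomology exactly outside the support of `H1`. -/
lemma BC.h1_eq_zero_iff (bc : BC (IsScalarTower.toAlgHom k B K) D D') :
    D'.h1 = 0 ↔ fieldPoint B K ∉ Module.support B D.H1 := by
  rw [← nontrivial_tensor_field_iff, not_nontrivial_iff_subsingleton, h1,
    Module.finrank_zero_iff, bc.H1Equiv.subsingleton_congr]

/-- The Euler characteristic of a fibre is a rank minus the number of added sections. -/
lemma BC.χ_eq_rankAtStalk (bc : BC (IsScalarTower.toAlgHom k B K) D D') {r : ℕ}
    (z : Fin r → D.P01) (h : Function.Surjective (D.dAug z)) :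
    D'.χ = (Module.rankAtStalk (LinearMap.ker (D.dAug z)) (fieldPoint B K) : ℤ) - r := by
  have := D.finite_ker_dAug z h
  have := D.projective_ker_dAug z h
  obtain ⟨hs, ⟨e⟩⟩ := bc.ker_dAug_baseChange z h
  rw [← finrank_tensor_field, e.finrank_eq, D'.finrank_ker_dAug _ hs, add_sub_cancel_right]

end

/-- The Euler characteristic of the fibres is locally constant. -/
theorem exists_χ_locallyConstant :
    ∃ f : LocallyConstant (PrimeSpectrum B) ℤ,
      ∀ (K : Type u) [Field K] [Algebra k K] [Algebra B K] [IsScalarTower k B K]
        (D' : Datum G K), BC (IsScalarTower.toAlgHom k B K) D D' →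
        D'.χ = f (fieldPoint B K) := by
  obtain ⟨r, z, h⟩ := D.exists_aug
  have := D.finite_ker_dAug z h
  have := D.projective_ker_dAug z h
  have := Module.finitePresentation_of_projective B (LinearMap.ker (D.dAug z))
  exact ⟨⟨fun p ↦ (Module.rankAtStalk (LinearMap.ker (D.dAug z)) p : ℤ) - r,
    (Module.isLocallyConstant_rankAtStalk).comp fun n : ℕ ↦ (n : ℤ) - r⟩,
    fun K _ _ _ _ D' bc ↦ bc.χ_eq_rankAtStalk z h⟩

/-- Fibres without first cohomology form an open set. -/
theorem isOpen_compl_support_H1 : IsOpen (Module.support B D.H1)ᶜ :=
  Module.isClosed_support.isOpen_compl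

/-- Surjectivity of the differential is tested on fibres. -/
theorem d_surjective_iff :
    Function.Surjective D.d ↔ ∀ p : PrimeSpectrum B, (D.fibre p).h1 = 0 := by
  rw [← LinearMap.range_eq_top, ← Submodule.Quotient.subsingleton_iff,
    ← Module.support_eq_empty_iff (R := B), Set.eq_empty_iff_forall_notMem]
  refine forall_congr' fun p ↦ ?_
  rw [(D.fibreBC p).h1_eq_zero_iff, fieldPoint_residueField]

end Datum

end

end Fermat.PIC
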